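import Fermat.Agent.BAD.Wit.Series

/-!
# Leading terms seen through a norm

If the norm to the smaller level of a section is a `p`-th power, then below the threshold the
leading term of an approximate root is a `p`-th power, and a scalar when `p` does not divide the
depth. `exists_expansion` writes the norm of `γ r` as `V ^ p + ρ ^ i Z`; a normalised root of it
(`exists_scaled_root`, `exists_normalised_root`) is compared with `V` by `RatData.pow_lead`.
-/

set_option autoImplicit false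

attribute [local instance 10000] SubalgebraClass.toAlgebra HahnSeries.powerSeriesAlgebra

noncomputable section

open AlgebraicCurve

namespace Fermat.BAD

open Fermat.FF Fermat.RED.Model ModularCurve

variable {L : Type*} [Field L] {A : ValuationSubring L}
variable {k : Type*} [Field k] [IsAlgClosed L] [IsAlgClosed k]
variable {F : Type*} [Field F] [Algebra L F]
variable {π : A →+* k} {ι : Bool → F →+* LaurentSeries L}
  {K : IntermediateField k (LaurentSeries k)}
variable [FF.IsFunctionField L F] [FF.IsFunctionField k K]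

/-- A norm to another field whose expansion is that at `b` times a factor from the other side. -/
structure NormData (X : Degen π ι K) (R : RatData π ι) (b : Bool) (F' : Type*) [Field F'] where
  /-- The expansion of the target field. -/
  ι' : F' →+* LaurentSeries L
  /-- The inclusion of the constants in `F'`. -/
  const : L →+* F'
  /-- They expand as constants. -/
  ι'_const : ∀ c, ι' (const c) = algebraMap L (LaurentSeries L) c
  /-- The norm map to `F'`. -/
  N : F →* F'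
  /-- The factor coming from the other side. -/
  Ψ : F →* LaurentSeries L
  /-- The expansion of a norm. -/
  expand : ∀ f, ι' (N f) = ι b f * Ψ f
  /-- The factor has coefficients in `M` when the function has. -/
  rc : ∀ f, R.RC f → Ψ f ∈ R.serM
  /-- It is integral for integral functions. -/
  int : ∀ f ∈ X.intF, (∃ m : ℕ, f ∈ riemannRochSpace (m • X.A0)) → Ψ f ∈ intSeries A
  /-- It has nonzero reduction when the other reduction is nonzero. -/
  ne : ∀ f ∈ X.intF, (∃ m : ℕ, f ∈ riemannRochSpace (m • X.A0)) → X.red (!b) f ≠ 0 →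
    redS π (Ψ f) ≠ 0
  /-- It moves by small multiples of `c` when the function moves by `c z`. -/
  move : ∀ x ∈ X.intF, (∃ m : ℕ, x ∈ riemannRochSpace (m • X.A0)) → ∀ z ∈ X.intF,
    (∃ m : ℕ, z ∈ riemannRochSpace (m • X.A0)) → ∀ c : L, c ≠ 0 → Small π c →
    ∀ n, Small π ((Ψ (x + c • z) - Ψ x).coeff n / c)
  /-- Integral expansions of the target reduce into `K`. -/
  red_mem : ∀ W, ι' W ∈ intSeries A → redS π (ι' W) ∈ K
  /-- Roots of norms have bounded expansions. -/
  bdd : ∀ (m : ℕ) f, f ∈ riemannRochSpace (m • X.A0) → ∀ (n : ℕ), n ≠ 0 → ∀ W, W ^ n = N f →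
    ∃ j : ℕ, algebraMap L (LaurentSeries L) (R.ρ ^ j) * ι' W ∈ intSeries A

/-- `M` is the fixed field of the automorphisms fixing it pointwise. -/
def FixM (R : RatData π ι) : Prop :=
  ∀ a : L, (∀ τ : L ≃+* L, (∀ c ∈ R.M, τ c = c) → τ a = a) → a ∈ R.M

variable {X : Degen π ι K} {R : RatData π ι} {a₀ p m : ℕ} {r : F} {u : Bool → K}

/-- A series whose `p`-th power has coefficients in `M` is a scalar times one with coefficients in
`M`. -/
theorem exists_rat_multiple (hp : p ≠ 0) (hfix : FixM R) {x : LaurentSeries L} (h0 : x ≠ 0)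
    (hx : x ^ p ∈ R.serM) :
    ∃ a : L, a ≠ 0 ∧ algebraMap L (LaurentSeries L) a⁻¹ * x ∈ R.serM := by
  obtain ⟨n₀, hn₀⟩ : ∃ n, x.coeff n ≠ 0 := by
    by_contra! h
    exact h0 (HahnSeries.ext (funext h))
  refine ⟨x.coeff n₀, hn₀, R.mem_serM.mpr fun n => hfix _ fun τ hτ => ?_⟩
  set y := coeffMap (τ : L →+* L) x
  have hy : y ^ p = x ^ p := by
    rw [← map_pow]
    refine HahnSeries.ext (funext fun d => ?_)
    rw [coeffMap_coeff]
    exact hτ _ (R.mem_serM.mp hx d)
  have hr : (y / x) ^ p = 1 := by rw [div_pow, hy, div_self (pow_ne_zero _ h0)]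
  obtain ⟨e, he⟩ : y / x ∈ Set.range (algebraMap L (LaurentSeries L)) := by
    have hint : IsIntegral L (y / x) := IsIntegral.of_pow (Nat.pos_of_ne_zero hp)
      (by rw [hr]; exact isIntegral_one)
    exact minpoly.mem_range_of_degree_eq_one L _
      (IsAlgClosed.degree_eq_one_of_irreducible L (minpoly.irreducible hint))
  have hye : ∀ d, τ (x.coeff d) = e * x.coeff d := fun d => by
    rw [← Fermat.RED.coeff_algebraMap_mul, he, div_mul_cancel₀ _ h0]
    exact (coeffMap_coeff (τ : L →+* L) x d).symm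
  have hτ0 : τ (x.coeff n₀) ≠ 0 := (_root_.map_ne_zero _).mpr hn₀
  have he0 : e ≠ 0 := left_ne_zero_of_mul (hye n₀ ▸ hτ0)
  rw [Fermat.RED.coeff_algebraMap_mul, map_mul, map_inv₀, hye, hye]
  field_simp

/-- A constant in `M` gives a series with coefficients in `M`. -/
theorem RatData.algebraMap_mem_serM {c : L} (hc : c ∈ R.M) :
    algebraMap L (LaurentSeries L) c ∈ R.serM := R.mem_serM.mpr fun d => by
  have := Fermat.RED.coeff_algebraMap_mul c (1 : LaurentSeries L) d
  rw [mul_one] at this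
  rw [this, HahnSeries.coeff_one]
  split <;> simp [hc, zero_mem]

/-- **The expansion of the norm.** With `V` the expansion of the norm of `f`, that of `γ r` is
`V ^ p + ρ ^ i Z`, where `Z` reduces to the leading term times the `p`-th power of the reduction of
the other factor. -/
theorem NormData.exists_expansion {b : Bool} {F' : Type*} [Field F'] (ND : NormData X R b F')
    (ht : Thresh R p a₀) (hs : X.Sec R p m r u) {i : ℤ} (hi : 0 < i) {f : F} {γ : L}
    (h : X.App R p m r u i f γ) :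
    ∃ Z : LaurentSeries L, Z ∈ intSeries A ∧
      ND.ι' (ND.N (γ • r)) =
        (ι b f * ND.Ψ f) ^ p + algebraMap L (LaurentSeries L) (R.ρ ^ i) * Z ∧
      redS π Z = (Degen.lead R X p i r f γ b : LaurentSeries k) * redS π (ND.Ψ f) ^ p := by
  have : Fact p.Prime := ⟨ht.prime⟩
  set C := algebraMap L (LaurentSeries L)
  set ρi := R.ρ ^ i
  have hρ0 : ρi ≠ 0 := zpow_ne_zero i R.ρ_ne
  have hρs := R.rho_pow_small hi
  have hf : f ∈ X.intF := X.mem_intF.mpr h.int
  -- `z` is the scaled difference, `ΔΨ` that of the other factor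
  set z := ρi⁻¹ • (γ • r - f ^ p)
  have hz : z ∈ X.intF := X.mem_intF.mpr (X.dvd_iff.mp h.dvd)
  have hγr : γ • r = f ^ p + ρi • z := by
    simp only [z]; rw [smul_smul, mul_inv_cancel₀ hρ0, one_smul]; ring
  have hfm : ∃ m' : ℕ, f ∈ riemannRochSpace (m' • X.A0) := ⟨m, h.mem⟩
  have hpm : ∃ m' : ℕ, f ^ p ∈ riemannRochSpace (m' • X.A0) := ⟨p * m, by
    rw [mem_riemannRochSpace]
    intro v
    refine ((mem_riemannRochSpace.mp h.mem v).pow p).mono ?_
    simp [mul_assoc]⟩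
  have hzm : ∃ m' : ℕ, z ∈ riemannRochSpace (m' • X.A0) :=
    ⟨p * m, Submodule.smul_mem _ _ (h.diff_mem hs)⟩
  have hrm : ∃ m' : ℕ, γ • r ∈ riemannRochSpace (m' • X.A0) :=
    ⟨p * m, Submodule.smul_mem _ _ hs.mem⟩
  set Φ := ND.Ψ f
  set ΔΨ := C ρi⁻¹ * (ND.Ψ (γ • r) - ND.Ψ (f ^ p))
  have hΔ : ∀ d, Small π (ΔΨ.coeff d) := fun d => by
    simp only [ΔΨ]
    rw [Fermat.RED.coeff_algebraMap_mul, hγr, inv_mul_eq_div]
    exact ND.move _ (pow_mem hf p) hpm _ hz hzm _ hρ0 hρs d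
  have hΔi : ΔΨ ∈ intSeries A := mem_intSeries_iff.mpr fun d => (hΔ d).1
  have hΔr : redS π ΔΨ = 0 := HahnSeries.ext (funext fun d => by
    rw [redS_coeff hΔi]; exact (hΔ d).2)
  have hγri : γ • r ∈ X.intF := X.intF_smul h.γ_A (X.mem_intF.mpr hs.int)
  -- the error term
  set Z := ι b z * ND.Ψ (γ • r) + ι b f ^ p * ΔΨ
  have hzi := X.mem_intF.mp hz b
  have hZ : Z ∈ intSeries A :=
    add_mem (mul_mem hzi (ND.int _ hγri hrm)) (mul_mem (pow_mem (h.int b) p) hΔi)
  refine ⟨Z, hZ, ?_, ?_⟩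
  · have hΔe : C ρi * ΔΨ = ND.Ψ (γ • r) - Φ ^ p := by
      simp only [ΔΨ, Φ]
      rw [← mul_assoc, ← map_mul, mul_inv_cancel₀ hρ0, map_one, one_mul, map_pow]
    have hze : ι b (γ • r) = ι b f ^ p + C ρi * ι b z := by
      rw [hγr, map_add, map_pow, Algebra.smul_def, map_mul, X.ι_algebraMap]
    rw [ND.expand, hze]
    linear_combination (-(ι b f ^ p)) * hΔe
  have hCs : C ρi ∈ intSeries A := algebraMap_mem_intSeries hρs.1
  rw [redS_add (mul_mem hzi (ND.int _ hγri hrm)) (mul_mem (pow_mem (h.int b) p) hΔi),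
    redS_mul (pow_mem (h.int b) p) hΔi, hΔr, mul_zero, add_zero, redS_mul hzi (ND.int _ hγri hrm)]
  congr 1
  · rw [redS_of_mem hzi]
    change _ = (X.red b z : LaurentSeries k)
    rw [X.red_of_int hzi]
    exact (redF_of_mem hzi).symm
  · rw [show ND.Ψ (γ • r) = Φ ^ p + C ρi * ΔΨ by
      simp only [ΔΨ, Φ]
      rw [← mul_assoc, ← map_mul, mul_inv_cancel₀ hρ0, map_one, one_mul, map_pow]; ring,
      redS_add (pow_mem (ND.int f hf hfm) p) (mul_mem hCs hΔi), redS_pow (ND.int f hf hfm),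
      redS_mul hCs hΔi, hΔr, mul_zero, add_zero]

/-- A root of the norm times a scalar is bounded. -/
theorem NormData.exists_bdd_root {b : Bool} {F' : Type*} [Field F'] (ND : NormData X R b F')
    (hn : p ≠ 0) (hr : r ∈ riemannRochSpace (m • X.A0)) {g γ a : L} (hg : g ^ p = γ)
    (hγ : γ ∈ A) (ha0 : a ≠ 0) {W : F'} (hW : W ^ p = ND.N r) :
    ∃ N : ℕ, algebraMap L (LaurentSeries L) (R.ρ ^ N) *
      (algebraMap L (LaurentSeries L) a⁻¹ * ND.ι' (ND.N (algebraMap L F g) * W)) ∈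
        intSeries A := by
  set C := algebraMap L (LaurentSeries L)
  obtain ⟨N₁, hN₁⟩ := ND.bdd _ r hr p hn W hW
  obtain ⟨N₂, hN₂⟩ : ∃ N₂ : ℕ, R.ρ ^ N₂ * a⁻¹ ∈ A := by
    rcases A.mem_or_inv_mem a⁻¹ with h1 | h1
    · exact ⟨0, by rwa [pow_zero, one_mul]⟩
    · rw [inv_inv] at h1
      obtain ⟨N₂, t, ht⟩ := X.arch ⟨R.ρ, R.ρ_A⟩ R.ρ_small ⟨a, h1⟩
        fun e => ha0 (congrArg Subtype.val e)
      refine ⟨N₂, ?_⟩
      have e : R.ρ ^ N₂ = a * (t : L) := congrArg Subtype.val ht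
      rw [e, mul_comm a, mul_inv_cancel_right₀ ha0]
      exact t.2
  have hgA : g ∈ A := by
    rcases A.mem_or_inv_mem g with h1 | h1
    · exact h1
    · rcases eq_or_ne g 0 with h0 | h0
      · rw [h0]; exact zero_mem A
      · have e : g = γ * g⁻¹ ^ (p - 1) := by
          rw [← hg, inv_pow, eq_mul_inv_iff_mul_eq₀ (pow_ne_zero _ h0), mul_pow_sub_one hn]
        rw [e]
        exact mul_mem hγ (pow_mem h1 _)
  have hgF : algebraMap L F g ∈ X.intF := X.mem_intF.mpr fun c => X.series_algebraMap hgA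
  refine ⟨N₁ + N₂, ?_⟩
  rw [map_mul ND.ι', ND.expand, show C (R.ρ ^ (N₁ + N₂)) * (C a⁻¹ * (ι b (algebraMap L F g) *
      ND.Ψ (algebraMap L F g) * ND.ι' W)) = C (R.ρ ^ N₂ * a⁻¹) * (ι b (algebraMap L F g) *
      ND.Ψ (algebraMap L F g)) * (C (R.ρ ^ N₁) * ND.ι' W) by
        rw [pow_add, map_mul, map_mul]; ring]
  exact mul_mem (mul_mem (algebraMap_mem_intSeries hN₂)
    (mul_mem (X.mem_intF.mp hgF b)
      (ND.int _ hgF ⟨0, by rw [zero_smul, riemannRochSpace_zero]; exact ⟨g, rfl⟩⟩))) hN₁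

/-- If the norm of `r` is a `p`-th power, some root of a multiple of that of `γ r` has integral
coefficients in `M` and nonzero reduction. -/
theorem NormData.exists_scaled_root {b : Bool} {F' : Type*} [Field F'] (ND : NormData X R b F')
    (hn : p ≠ 0) (hfix : FixM R) (hr : r ∈ riemannRochSpace (m • X.A0))
    (hW : ∃ W : F', W ^ p = ND.N r) {γ : L} (hγ : γ ∈ A) (hSM : ND.ι' (ND.N (γ • r)) ∈ R.serM)
    (hS0 : ND.ι' (ND.N (γ • r)) ≠ 0) :
    ∃ (β : L) (W3 : F'), ND.ι' W3 ∈ intSeries A ∧ redS π (ND.ι' W3) ≠ 0 ∧ ND.ι' W3 ∈ R.serM ∧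
      ND.ι' W3 ^ p = algebraMap L (LaurentSeries L) (β ^ p) * ND.ι' (ND.N (γ • r)) := by
  set C := algebraMap L (LaurentSeries L)
  set S := ND.ι' (ND.N (γ • r)) with hSdef
  obtain ⟨W, hW⟩ := hW
  -- a `p`th root `W1` of the norm of `γ r`
  obtain ⟨g, hg⟩ := IsAlgClosed.exists_pow_nat_eq γ (Nat.pos_of_ne_zero hn)
  set W1 := ND.N (algebraMap L F g) * W
  have hW1 : ND.ι' W1 ^ p = S := by
    rw [hSdef, ← map_pow, mul_pow, hW, ← map_pow, ← map_pow, hg, ← map_mul, ← Algebra.smul_def]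
  have hW10 : ND.ι' W1 ≠ 0 := fun e => hS0 (by rw [← hW1, e, zero_pow hn])
  -- a constant multiple of it has coefficients in `M`, with bounded denominators
  obtain ⟨a, ha0, haM⟩ := exists_rat_multiple hn hfix hW10 (hW1 ▸ hSM)
  set W2 := ND.const a⁻¹ * W1
  have hW2 : ND.ι' W2 = C a⁻¹ * ND.ι' W1 := by rw [map_mul, ND.ι'_const]
  rw [← hW2] at haM
  have hW20 : ND.ι' W2 ≠ 0 := by
    rw [hW2]; exact mul_ne_zero ((_root_.map_ne_zero _).mpr (inv_ne_zero ha0)) hW10
  obtain ⟨N, hN⟩ : ∃ N : ℕ, C (R.ρ ^ N) * ND.ι' W2 ∈ intSeries A := by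
    rw [hW2]
    exact ND.exists_bdd_root hn hr hg hγ ha0 hW
  -- scale by a power of the uniformiser to integral with nonzero reduction
  obtain ⟨j₀, hj₀, hj₀n⟩ := R.exists_scale
    (mul_mem (R.algebraMap_mem_serM (pow_mem R.ρ_mem N)) haM) hN
    (mul_ne_zero ((_root_.map_ne_zero _).mpr (pow_ne_zero _ R.ρ_ne)) hW20)
  set β := (R.ρ ^ j₀)⁻¹ * R.ρ ^ N * a⁻¹
  set W3 := ND.const β * W1
  have hW3 : ND.ι' W3 = C (R.ρ ^ j₀)⁻¹ * (C (R.ρ ^ N) * ND.ι' W2) := by
    rw [map_mul, ND.ι'_const, hW2]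
    simp only [β, C, map_mul]
    ring
  rw [← hW3] at hj₀ hj₀n
  have hW3M : ND.ι' W3 ∈ R.serM := by
    rw [hW3]
    exact mul_mem (R.algebraMap_mem_serM (inv_mem (pow_mem R.ρ_mem _)))
      (mul_mem (R.algebraMap_mem_serM (pow_mem R.ρ_mem N)) haM)
  have hW3p : ND.ι' W3 ^ p = C (β ^ p) * S := by
    rw [map_mul, ND.ι'_const, mul_pow, hW1, map_pow]
  exact ⟨β, W3, hj₀, hj₀n, hW3M, hW3p⟩

/-- A root with nonzero reduction of a multiple of a series congruent to `V ^ p` can be given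
the same coefficient as `V` where the reduction of `V` does not vanish; the multiplier is then
congruent to one. -/
theorem exists_normalised_root [Fact p.Prime] [CharP k p] (hsur : Function.Surjective π)
    {V S x : LaurentSeries L} {n : ℤ} (hV : V ∈ intSeries A) (hVM : V ∈ R.serM)
    (hnV : (redS π V).coeff n ≠ 0) (hSi : S ∈ intSeries A) (hSM : S ∈ R.serM)
    (hSr : redS π S = redS π V ^ p) {β : L} (hj₀ : x ∈ intSeries A) (hj₀n : redS π x ≠ 0)
    (hxM : x ∈ R.serM) (hxp : x ^ p = algebraMap L (LaurentSeries L) (β ^ p) * S) :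
    ∃ (s β' : L) (hβ'A : β' ∈ A), β' ∈ R.M ∧ π ⟨β', hβ'A⟩ = 1 ∧
      algebraMap L (LaurentSeries L) s * x ∈ intSeries A ∧
      algebraMap L (LaurentSeries L) s * x ∈ R.serM ∧
      (algebraMap L (LaurentSeries L) s * x).coeff n = V.coeff n ∧
      (algebraMap L (LaurentSeries L) s * x) ^ p = algebraMap L (LaurentSeries L) β' * S := by
  set C := algebraMap L (LaurentSeries L)
  have hn := (Fact.out : p.Prime).ne_zero
  have hS0 : S ≠ 0 := fun e => hnV (by
    have h0 : redS π S = 0 := by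
      rw [e, redS_of_mem (zero_mem _), show (⟨0, zero_mem _⟩ : intSeries A) = 0 from rfl, map_zero]
    rw [hSr, pow_eq_zero_iff hn] at h0
    rw [h0, HahnSeries.coeff_zero])
  obtain ⟨n₁, hn₁⟩ : ∃ d, (redS π S).coeff d ≠ 0 := ⟨(p : ℤ) * n, by
    rw [hSr, coeff_pow_char]; exact pow_ne_zero p hnV⟩
  have hβA : β ^ p ∈ A := by
    have h1 := mem_intSeries_iff.mp (pow_mem hj₀ p) n₁
    rw [hxp, Fermat.RED.coeff_algebraMap_mul] at h1
    rw [redS_coeff hSi] at hn₁
    have h2 := mul_mem h1 (inv_mem_of_map_ne_zero hsur hn₁)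
    rwa [mul_inv_cancel_right₀ (fun e => hn₁ (by
      rw [show (⟨S.coeff n₁, mem_intSeries_iff.mp hSi n₁⟩ : A) = 0 from Subtype.ext e,
        map_zero]))] at h2
  have hxr : redS π x ^ p = algebraMap k (LaurentSeries k) (π ⟨_, hβA⟩) * redS π V ^ p := by
    rw [← redS_pow hj₀, hxp, redS_mul (algebraMap_mem_intSeries hβA) hSi, redS_const hβA, hSr]
  have hb1 : (redS π x).coeff n ^ p = π ⟨_, hβA⟩ * (redS π V).coeff n ^ p := by
    rw [← coeff_pow_char p, hxr, Fermat.RED.coeff_algebraMap_mul, coeff_pow_char]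
  have hxn : (redS π x).coeff n ≠ 0 := fun e => by
    rw [e, zero_pow hn, eq_comm, mul_eq_zero, or_iff_left (pow_ne_zero p hnV)] at hb1
    exact pow_ne_zero p hj₀n (by rw [hxr, hb1, map_zero, zero_mul])
  -- normalise the coefficient at `n`
  set cx := x.coeff n
  set cV := V.coeff n
  rw [redS_coeff hj₀] at hxn hb1
  have hnV' := hnV
  rw [redS_coeff hV] at hnV' hb1
  set cxA : A := ⟨cx, mem_intSeries_iff.mp hj₀ n⟩
  set cVA : A := ⟨cV, mem_intSeries_iff.mp hV n⟩
  have hcx0 : cx ≠ 0 := fun e => hxn (by rw [show cxA = 0 from Subtype.ext e, map_zero])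
  have hcxi : cx⁻¹ ∈ A := inv_mem_of_map_ne_zero hsur hxn
  set s := cV * cx⁻¹
  have hsA : s ∈ A := mul_mem cVA.2 hcxi
  have hsM : s ∈ R.M := mul_mem (R.mem_serM.mp hVM n) (inv_mem (R.mem_serM.mp hxM n))
  set β' := (s * β) ^ p
  have hW'p : (C s * x) ^ p = C β' * S := by
    rw [mul_pow, hxp, ← mul_assoc, ← map_pow, ← map_mul, ← mul_pow]
  have hW'M : C s * x ∈ R.serM := mul_mem (R.algebraMap_mem_serM hsM) hxM
  have hβ'M : β' ∈ R.M := by
    obtain ⟨d, hd⟩ : ∃ d, S.coeff d ≠ 0 := by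
      by_contra! h'
      exact hS0 (HahnSeries.ext (funext h'))
    have := div_mem (R.mem_serM.mp (hW'p ▸ pow_mem hW'M p : C β' * S ∈ R.serM) d)
      (R.mem_serM.mp hSM d)
    rwa [Fermat.RED.coeff_algebraMap_mul, mul_div_cancel_right₀ _ hd] at this
  have hβ'A : β' ∈ A := by
    rw [show β' = s ^ p * β ^ p from mul_pow _ _ _]; exact mul_mem (pow_mem hsA p) hβA
  have hβ'1 : π ⟨β', hβ'A⟩ = 1 := by
    refine mul_right_cancel₀ (pow_ne_zero p hnV') ?_
    rw [one_mul, show (⟨β', hβ'A⟩ : A) = ⟨s, hsA⟩ ^ p * ⟨β ^ p, hβA⟩ from Subtype.ext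
      (mul_pow _ _ _), map_mul, map_pow, mul_assoc, ← hb1, ← mul_pow, ← map_mul]
    congr 2
    exact Subtype.ext (inv_mul_cancel_right₀ hcx0 cV)
  refine ⟨s, β', hβ'A, hβ'M, hβ'1, mul_mem (algebraMap_mem_intSeries hsA) hj₀, hW'M, ?_, hW'p⟩
  rw [Fermat.RED.coeff_algebraMap_mul]
  exact inv_mul_cancel_right₀ hcx0 cV

omit [FF.IsFunctionField k K] in
/-- A relation `l = w ^ p (τ (η / V) ^ p - d)` makes `l` a `p`-th power, and a scalar multiple
of `w ^ p` when `τ = 0`. -/
theorem exists_pow_of_relation [Fact p.Prime] [CharP k p] (l w : K) {η V : LaurentSeries k}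
    (hη : η ∈ K) (hV : V ∈ K) (τ d : k)
    (hkey : (l : LaurentSeries k) = (w : LaurentSeries k) ^ p *
      (algebraMap k (LaurentSeries k) τ * (η / V) ^ p - algebraMap k (LaurentSeries k) d)) :
    (∃ v : K, l = (w * v) ^ p) ∧ (τ = 0 → ∃ c : k, l = c • w ^ p) := by
  have hp := (Fact.out : p.Prime)
  obtain ⟨t, ht'⟩ := IsAlgClosed.exists_pow_nat_eq τ hp.pos
  obtain ⟨e, he⟩ := IsAlgClosed.exists_pow_nat_eq d hp.pos
  have : CharP (LaurentSeries k) p :=
    charP_of_injective_algebraMap (algebraMap k (LaurentSeries k)).injective p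
  refine ⟨⟨algebraMap k K t * (⟨_, hη⟩ / ⟨_, hV⟩) - algebraMap k K e, Subtype.ext ?_⟩,
    fun hτ => ⟨-d, Subtype.ext ?_⟩⟩
  · push_cast
    rw [hkey, mul_pow, sub_pow_char, mul_pow, ← map_pow, ← map_pow, ht', he]
  · rw [hkey, hτ, map_zero, zero_mul, zero_sub, Algebra.smul_def]
    push_cast
    ring

/-- **The leading term through the norm**: below the threshold it is a `p`-th power, and a scalar
multiple of `u ^ p` unless `p` divides the depth. -/
theorem NormData.lead_form {b : Bool} {F' : Type*} [Field F'] (ND : NormData X R b F')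
    (ht : Thresh R p a₀) (hfix : FixM R) (hs : X.Sec R p m r u) (hu : ∀ c, u c ≠ 0)
    (hW : ∃ W : F', W ^ p = ND.N r) {i : ℤ} (hi : 0 < i) (hip : i < (p : ℤ) * a₀)
    {f : F} {γ : L} (h : X.App R p m r u i f γ) :
    (∃ v : K, Degen.lead R X p i r f γ b = (u b * v) ^ p) ∧
      (¬ (p : ℤ) ∣ i → ∃ c : k, Degen.lead R X p i r f γ b = c • u b ^ p) := by
  have : Fact p.Prime := ⟨ht.prime⟩
  have : CharP k p := (CharP.charP_iff_prime_eq_zero ht.prime).mpr ht.char
  have hn := ht.prime.ne_zero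
  set C := algebraMap L (LaurentSeries L)
  have hρs := R.rho_pow_small hi
  have hf : f ∈ X.intF := X.mem_intF.mpr h.int
  have hfm : ∃ m' : ℕ, f ∈ riemannRochSpace (m' • X.A0) := ⟨m, h.mem⟩
  set Φ := ND.Ψ f
  set V := ι b f * Φ
  have hV : V ∈ intSeries A := mul_mem (h.int b) (ND.int f hf hfm)
  have hVM : V ∈ R.serM := mul_mem (h.rc b) (ND.rc f h.rc)
  have hΦr : redS π Φ ≠ 0 := ND.ne f hf hfm (by rw [h.red]; exact hu _)
  have hfr : redS π (ι b f) = (u b : LaurentSeries k) := by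
    rw [redS_of_mem (h.int b), ← h.red b, X.red_of_int (h.int b)]
    exact (redF_of_mem (h.int b)).symm
  have hVr : redS π V = (u b : LaurentSeries k) * redS π Φ := by
    rw [redS_mul (h.int b) (ND.int f hf hfm), hfr]
  have hV0 : redS π V ≠ 0 := by
    rw [hVr]; exact mul_ne_zero (by simpa using hu b) hΦr
  obtain ⟨n, hnV⟩ : ∃ n, (redS π V).coeff n ≠ 0 := by
    by_contra! h'
    exact hV0 (HahnSeries.ext (funext h'))
  obtain ⟨Z, hZ, hS, hZred⟩ := ND.exists_expansion ht hs hi h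
  set S := ND.ι' (ND.N (γ • r)) with hSdef
  have hCs : C (R.ρ ^ i) ∈ intSeries A := algebraMap_mem_intSeries hρs.1
  have hSi : S ∈ intSeries A := hS ▸ add_mem (pow_mem hV p) (mul_mem hCs hZ)
  have hSr : redS π S = redS π V ^ p := by
    rw [hS, redS_add (pow_mem hV p) (mul_mem hCs hZ), redS_pow hV, redS_mul hCs hZ,
      redS_const hρs.1, hρs.2, map_zero, zero_mul, add_zero]
  have hSM : S ∈ R.serM := by
    rw [hSdef, ND.expand]
    have hrc : R.RC (γ • r) := R.rc_smul (X := X) h.γ_mem hs.rc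
    exact mul_mem (hrc b) (ND.rc _ hrc)
  have hS0 : S ≠ 0 := fun e => pow_ne_zero p hV0 (by
    rw [← hSr, e, redS_of_mem (zero_mem _), show (⟨0, zero_mem _⟩ : intSeries A) = 0 from rfl,
      map_zero])
  obtain ⟨β, W3, hj₀, hj₀n, hW3M, hW3p⟩ :=
    ND.exists_scaled_root hn hfix hs.mem hW h.γ_A hSM hS0
  obtain ⟨s, β', hβ'A, hβ'M, hβ'1, hW'i, hW'M, hW'n, hW'p⟩ :=
    exists_normalised_root (R := R) X.surj hV hVM hnV hSi hSM hSr hj₀ hj₀n hW3M hW3p
  obtain ⟨j, τ, d, hηi, hred, hτ⟩ := R.pow_lead ht.val_p hV hVM hW'i hW'M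
    (Z := C β' * Z) (mul_mem (algebraMap_mem_intSeries hβ'A) hZ) hnV hW'n
    hip (by
      rw [hW'p, hS, show (1 : L) + (β' - 1) = β' by ring]; ring)
  -- descend to the curve
  set η := C (R.ρ ^ j)⁻¹ * (C s * ND.ι' W3 - V)
  have hWe : ND.ι' (ND.const (R.ρ ^ j)⁻¹ * (ND.const s * W3 - ND.N f)) = η := by
    rw [map_mul, map_sub, map_mul, ND.ι'_const, ND.ι'_const, ND.expand]
  have hηK : redS π η ∈ K := hWe ▸ ND.red_mem _ (hWe ▸ hηi)
  have hVK : redS π V ∈ K := by
    have := ND.red_mem (ND.N f) (by rw [ND.expand]; exact hV)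
    rwa [ND.expand] at this
  have hkey : (Degen.lead R X p i r f γ b : LaurentSeries k) =
      (u b : LaurentSeries k) ^ p * (algebraMap k (LaurentSeries k) τ *
        (redS π η / redS π V) ^ p - algebraMap k (LaurentSeries k) d) := by
    refine mul_right_cancel₀ (pow_ne_zero p hΦr) (Eq.trans ?_ (hred.trans ?_))
    · rw [redS_mul (algebraMap_mem_intSeries hβ'A) hZ, redS_const hβ'A, hβ'1, map_one, one_mul,
        hZred]
    rw [hVr, div_pow, mul_pow]
    have := pow_ne_zero p hΦr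
    have : (u b : LaurentSeries k) ^ p ≠ 0 := pow_ne_zero p (by simpa using hu b)
    field_simp
  obtain ⟨hpow, hscal⟩ := exists_pow_of_relation _ _ hηK hVK τ d hkey
  exact ⟨hpow, fun hnd => hscal (hτ hnd)⟩

end Fermat.BAD

end
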