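import Fermat.Agent.BAD.Wit.Linear
import Mathlib.RingTheory.Nullstellensatz

/-!
# Approximate roots of every depth give a root

The space of the roots is finite dimensional, so if the polynomial equations had no zero the
Nullstellensatz would bound the depth.
-/

set_option autoImplicit false

noncomputable section

open AlgebraicCurve MvPolynomial

namespace Fermat.BAD

open Fermat.FF Fermat.RED.Model

variable {L : Type*} [Field L] {A : ValuationSubring L}

/-- Finitely many elements have a common nonzero integral denominator in the valuation ring. -/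
theorem exists_den {α : Type*} (T : Finset α) (a : α → L) :
    ∃ N : L, N ≠ 0 ∧ N ∈ A ∧ ∀ i ∈ T, N * a i ∈ A := by
  classical
  induction T using Finset.induction_on with
  | empty => exact ⟨1, one_ne_zero, one_mem A, by simp⟩
  | insert x T hx ih =>
    obtain ⟨N, hN0, hNA, hN⟩ := ih
    rcases A.mem_or_inv_mem (a x) with h | h
    · refine ⟨N, hN0, hNA, fun i hi => ?_⟩
      rcases Finset.mem_insert.mp hi with rfl | hi
      · exact mul_mem hNA h
      · exact hN i hi
    · rcases eq_or_ne (a x) 0 with h0 | h0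
      · refine ⟨N, hN0, hNA, fun i hi => ?_⟩
        rcases Finset.mem_insert.mp hi with rfl | hi
        · rw [h0, mul_zero]; exact zero_mem A
        · exact hN i hi
      refine ⟨N * (a x)⁻¹, mul_ne_zero hN0 (inv_ne_zero h0), mul_mem hNA h, fun i hi => ?_⟩
      rcases Finset.mem_insert.mp hi with rfl | hi
      · rwa [mul_assoc, inv_mul_cancel₀ h0, mul_one]
      · rw [mul_right_comm]; exact mul_mem (hN i hi) h

/-- A scalar clearing the coefficients clears the values at integral points. -/
theorem eval_mem {σ : Type*} {x : σ → L} (hx : ∀ i, x i ∈ A) {N : L} {P : MvPolynomial σ L}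
    (hP : ∀ d ∈ P.support, N * P.coeff d ∈ A) : N * aeval x P ∈ A := by
  rw [aeval_def, eval₂_eq, Finset.mul_sum]
  refine sum_mem fun d hd => ?_
  rw [← mul_assoc]
  exact mul_mem (hP d hd) (prod_mem fun i _ => pow_mem (hx i) _)

variable {k : Type*} [Field k] [IsAlgClosed L] [IsAlgClosed k]
variable {F : Type*} [Field F] [Algebra L F]
variable {π : A →+* k} {ι : Bool → F →+* LaurentSeries L}
  {K : IntermediateField k (LaurentSeries k)}
variable [FF.IsFunctionField L F] [FF.IsFunctionField k K]

namespace Degen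

variable (X : Degen π ι K)

include X in
/-- The functional taking the `i`-th coefficient of the expansion at a component. -/
def cf (i : Bool × ℤ) : F →ₗ[L] L :=
  { toFun := fun f => (ι i.1 f).coeff i.2
    map_add' := fun f g => by rw [map_add, HahnSeries.coeff_add]
    map_smul' := fun c f => by rw [RatData.coeff_smul (X := X), RingHom.id_apply, smul_eq_mul] }

/-- The coefficient functionals separate functions. -/
theorem cf_sep (f : F) (h : ∀ i, X.cf i f = 0) : f = 0 :=
  (ι true).injective (by rw [map_zero]; exact HahnSeries.ext (funext fun n => h (true, n)))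

variable {X} {R : RatData π ι} {p m : ℕ} {r : F} {u : Bool → K}

include X in
/-- **Approximate zeros of all depths give a zero**: by the Nullstellensatz, equations without
zeros bound the depth of their approximate integral zeros. -/
theorem zeroLocus_nonempty_of_approx {σ : Type*} [Finite σ] (gens : Set (MvPolynomial σ L))
    (h : ∀ j : ℕ, ∃ x : σ → L, (∀ i, x i ∈ A) ∧ ∀ g ∈ gens, aeval x g / R.ρ ^ j ∈ A) :
    (zeroLocus L (Ideal.span gens)).Nonempty := by
  classical
  by_contra hz
  rw [Set.not_nonempty_iff_eq_empty] at hz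
  have htop : (1 : MvPolynomial σ L) ∈ Ideal.span gens := by
    have h1 := vanishingIdeal_zeroLocus_eq_radical (K := L) (Ideal.span gens)
    rw [hz, vanishingIdeal_empty, eq_comm, Ideal.radical_eq_top] at h1
    rw [h1]; exact Submodule.mem_top
  obtain ⟨c, hc⟩ := (Finsupp.mem_span_iff_linearCombination (MvPolynomial σ L) gens 1).mp htop
  obtain ⟨N, hN0, hNA, hN⟩ := exists_den (A := A) (c.support.sigma fun g => (c g).support)
    (fun t => (c t.1).coeff t.2)
  have hρ1 : R.ρ⁻¹ ∉ A := fun h1 => by
    have := congrArg π (show (⟨R.ρ, R.ρ_A⟩ : A) * ⟨R.ρ⁻¹, h1⟩ = 1 from Subtype.ext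
      (mul_inv_cancel₀ R.ρ_ne))
    rw [map_mul, R.ρ_small, zero_mul, map_one] at this
    exact zero_ne_one this
  obtain ⟨n₀, z, hz'⟩ := X.arch ⟨R.ρ, R.ρ_A⟩ R.ρ_small ⟨N, hNA⟩ fun e =>
    hN0 (congrArg Subtype.val e)
  have hz'' : R.ρ ^ n₀ = N * (z : L) := congrArg Subtype.val hz'
  obtain ⟨x, hxA, hgen⟩ := h (n₀ + 1)
  refine hρ1 ?_
  have hsum : N / R.ρ ^ (n₀ + 1) ∈ A := by
    have h1 := congrArg (aeval x) hc
    rw [map_one, Finsupp.linearCombination_apply, Finsupp.sum, map_sum] at h1
    rw [← mul_one N, ← h1, Finset.mul_sum, Finset.sum_div]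
    refine sum_mem fun g hg => ?_
    rw [smul_eq_mul, map_mul, ← mul_assoc, mul_div_assoc]
    exact mul_mem (eval_mem hxA fun d hd => hN ⟨g, d⟩ (Finset.mem_sigma.mpr ⟨hg, hd⟩))
      (hgen g g.2)
  have := mul_mem hsum z.2
  rwa [div_mul_eq_mul_div, ← hz'', pow_succ', div_mul_cancel_right₀ (pow_ne_zero _ R.ρ_ne)] at this

omit [IsAlgClosed L] in
include X in
/-- The value at `x` of a coefficient of the generic equation `γ r = (∑ xᵢ βᵢ) ^ p`. -/
theorem aeval_coeff_eqn {S : Type*} [Fintype S] (r : F) (β : S → F) (x : S ⊕ Bool → L)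
    (b : Bool) (n : ℤ) :
    aeval x ((HahnSeries.single 0 (MvPolynomial.X (Sum.inr true)) *
      ModularCurve.coeffMap (MvPolynomial.C) (ι b r) -
      (∑ i : S, HahnSeries.single 0 (MvPolynomial.X (Sum.inl i)) *
        ModularCurve.coeffMap (MvPolynomial.C) (ι b (β i))) ^ p :
          LaurentSeries (MvPolynomial (S ⊕ Bool) L)).coeff n) =
      (ι b (x (Sum.inr true) • r - (∑ i : S, x (Sum.inl i) • β i) ^ p)).coeff n := by
  let P := MvPolynomial (S ⊕ Bool) L
  let CC : LaurentSeries L →+* LaurentSeries P := ModularCurve.coeffMap (MvPolynomial.C)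
  let var : S ⊕ Bool → LaurentSeries P := fun i => HahnSeries.single 0 (MvPolynomial.X i)
  change aeval x ((var (Sum.inr true) * CC (ι b r) -
    (∑ i : S, var (Sum.inl i) * CC (ι b (β i))) ^ p).coeff n) = _
  let E : LaurentSeries P →+* LaurentSeries L := ModularCurve.coeffMap (aeval x).toRingHom
  have hC : ∀ z, E (CC z) = z := fun z => HahnSeries.ext (funext fun d => by
    change aeval x (MvPolynomial.C (z.coeff d)) = z.coeff d
    rw [aeval_C]; rfl)
  have hv : ∀ i, E (var i) = algebraMap L (LaurentSeries L) (x i) := fun i => by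
    refine HahnSeries.ext (funext fun d => ?_)
    have := Fermat.RED.coeff_algebraMap_mul (x i) (1 : LaurentSeries L) d
    rw [mul_one] at this
    rw [this]
    change aeval x ((HahnSeries.single (0 : ℤ) (MvPolynomial.X i : P)).coeff d) = _
    rw [HahnSeries.coeff_single, HahnSeries.coeff_one]
    split
    · rw [aeval_X, mul_one]
    · rw [map_zero, mul_zero]
  set z := var (Sum.inr true) * CC (ι b r) - (∑ i : S, var (Sum.inl i) * CC (ι b (β i))) ^ p with hz
  have h1 : aeval x (z.coeff n) = (E z).coeff n := (ModularCurve.coeffMap_coeff _ _ _).symm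
  rw [h1, hz]
  simp only [map_sub, map_mul, map_pow, map_sum, hv, hC, Algebra.smul_def, X.ι_algebraMap]

/-- **Approximate roots of all depths give a root.** -/
theorem exact_of_approx (hs : X.Sec R p m r u)
    (h : ∀ j : ℕ, ∃ i : ℤ, (j : ℤ) ≤ i ∧ X.Approx R p m r u i) :
    ∃ (f : F) (γ : L), γ ≠ 0 ∧ f ∈ riemannRochSpace (m • X.A0) ∧ f ^ p = γ • r := by
  classical
  set V := riemannRochSpace (m • X.A0)
  set V' := riemannRochSpace ((p * m) • X.A0)
  have : FiniteDimensional L V := FF.instFiniteRiemannRochSpace _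
  have : FiniteDimensional L V' := FF.instFiniteRiemannRochSpace _
  obtain ⟨S, -, hS⟩ := exists_separating_finset X.cf X.cf_sep V
  obtain ⟨S', -, hS'⟩ := exists_separating_finset X.cf X.cf_sep V'
  let Φ : V →ₗ[L] (S → L) := LinearMap.pi fun i => (X.cf i.1).comp V.subtype
  have hΦ : LinearMap.ker Φ = ⊥ := LinearMap.ker_eq_bot'.mpr fun v hv =>
    Subtype.ext (hS _ v.2 fun i hi => congrFun hv ⟨i, hi⟩)
  obtain ⟨Ψ, hΨ⟩ := Φ.exists_leftInverse_of_injective hΦ
  let β : S → F := fun i => (Ψ (Pi.single i 1) : V)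
  have hβ : ∀ v : V, (v : F) = ∑ i : S, X.cf i.1 (v : F) • β i := fun v => by
    have h1 : v = Ψ (Φ v) := (LinearMap.congr_fun hΨ v).symm
    conv_lhs => rw [h1]
    rw [pi_eq_sum_univ' (Φ v), map_sum, AddSubmonoidClass.coe_finsetSum]
    refine Finset.sum_congr rfl fun i _ => ?_
    rw [map_smul, SetLike.val_smul]
    rfl
  -- the equations
  let P := MvPolynomial (S ⊕ Bool) L
  let CC : LaurentSeries L →+* LaurentSeries P := ModularCurve.coeffMap (MvPolynomial.C)
  let var : S ⊕ Bool → LaurentSeries P := fun i => HahnSeries.single 0 (MvPolynomial.X i)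
  let G : Bool → LaurentSeries P := fun b => ∑ i : S, var (Sum.inl i) * CC (ι b (β i))
  let Eq : Bool → ℤ → P := fun b n => (var (Sum.inr true) * CC (ι b r) - G b ^ p).coeff n
  let gens : Set P := Set.range (fun i : S' => Eq i.1.1 i.1.2) ∪
    {MvPolynomial.X (Sum.inr true) * MvPolynomial.X (Sum.inr false) - 1}
  have hev : ∀ (x : S ⊕ Bool → L) (b : Bool) (n : ℤ), aeval x (Eq b n) =
      (ι b (x (Sum.inr true) • r - (∑ i : S, x (Sum.inl i) • β i) ^ p)).coeff n :=
    fun x b n => aeval_coeff_eqn (X := X) r β x b n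
  obtain ⟨x, hx⟩ := zeroLocus_nonempty_of_approx (X := X) (R := R) gens fun j => by
    obtain ⟨i, hij, f, γ, ha⟩ := h j
    let x : S ⊕ Bool → L := Sum.elim (fun s => X.cf s.1 f) (fun b => cond b γ γ⁻¹)
    have hγA := ha.γ_A
    have hγ1 : γ⁻¹ ∈ A := inv_mem_of_map_ne_zero X.surj (a := ⟨γ, hγA⟩) (by
      have := ha.γ_one.2
      rw [show (⟨γ - 1, ha.γ_one.1⟩ : A) = ⟨γ, hγA⟩ - 1 from rfl, map_sub, map_one,
        sub_eq_zero] at this
      rw [this]; exact one_ne_zero)
    have hγ0 : γ ≠ 0 := fun e => by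
      have := ha.γ_one.2
      simp only [e, zero_sub] at this
      rw [show (⟨-1, _⟩ : A) = -1 from rfl, map_neg, map_one, neg_eq_zero] at this
      exact one_ne_zero this
    have hxA : ∀ i, x i ∈ A := by
      rintro (s | b)
      · exact mem_intSeries_iff.mp (ha.int s.1.1) s.1.2
      · cases b
        · exact hγ1
        · exact hγA
    have hf : (∑ i : S, x (Sum.inl i) • β i) = f := (hβ ⟨f, ha.mem⟩).symm
    have hgen : ∀ g : gens, aeval x (g : P) / R.ρ ^ j ∈ A := by
      rintro ⟨g, ⟨⟨⟨b, n⟩, hi⟩, rfl⟩ | hg⟩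
      · simp only
        rw [hev, hf, show x (Sum.inr true) = γ from rfl]
        have := ha.dvd b n
        rw [show ((ι b (γ • r - f ^ p)).coeff n / R.ρ ^ j : L) =
          (ι b (γ • r - f ^ p)).coeff n / R.ρ ^ i * R.ρ ^ (i - (j : ℤ)) by
            rw [zpow_sub₀ R.ρ_ne, zpow_natCast]
            have := zpow_ne_zero i R.ρ_ne
            field_simp]
        exact mul_mem this (R.rho_pow_mem (by linarith))
      · rw [Set.mem_singleton_iff] at hg
        subst hg
        simp only [map_sub, map_mul, map_one, aeval_X, x, Sum.elim_inr, cond_true, cond_false,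
          mul_inv_cancel₀ hγ0, sub_self, zero_div]
        exact zero_mem A
    exact ⟨x, hxA, fun g hg => hgen ⟨g, hg⟩⟩
  rw [zeroLocus_span, Set.mem_ofPred_eq] at hx
  have hu' := hx _ (Or.inr rfl)
  simp only [map_sub, map_mul, map_one, aeval_X, sub_eq_zero] at hu'
  refine ⟨∑ i : S, x (Sum.inl i) • β i, x (Sum.inr true), left_ne_zero_of_mul_eq_one hu',
    sum_mem fun i _ => Submodule.smul_mem _ _ (SetLike.coe_mem _), ?_⟩
  set g := x (Sum.inr true) • r - (∑ i : S, x (Sum.inl i) • β i) ^ p
  have hg : g = 0 := by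
    refine hS' g (Submodule.sub_mem _ (Submodule.smul_mem _ _ hs.mem) ?_) fun i hi => ?_
    · rw [mem_riemannRochSpace]
      intro v
      refine ((mem_riemannRochSpace.mp (sum_mem fun i _ =>
        Submodule.smul_mem _ _ (SetLike.coe_mem _) :
        (∑ i : S, x (Sum.inl i) • β i) ∈ V) v).pow p).mono ?_
      simp [mul_assoc]
    · exact (hev x i.1 i.2).symm.trans (hx _ (Or.inl ⟨⟨i, hi⟩, rfl⟩))
  exact (sub_eq_zero.mp hg).symm

end Degen

end Fermat.BAD

end
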