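import Fermat.Agent.BAD.Wit.Push
import Fermat.Agent.BAD.Wit.Exact

/-!
# Reaching the threshold, and the leading term there under products and automorphisms

A section whose norms are `p`-th powers has an approximate root of depth `p * a₀`; its leading term
is additive in products and is multiplied by the tame character by an automorphism.
-/

set_option autoImplicit false
set_option linter.unusedSectionVars false

attribute [local instance 10000] SubalgebraClass.toAlgebra HahnSeries.powerSeriesAlgebra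

noncomputable section

open AlgebraicCurve

namespace Fermat.BAD

open Fermat.FF Fermat.RED.Model

variable {L : Type*} [Field L] {A : ValuationSubring L}
variable {k : Type*} [Field k] [IsAlgClosed L] [IsAlgClosed k]
variable {F : Type*} [Field F] [Algebra L F]
variable {π : A →+* k} {ι : Bool → F →+* LaurentSeries L}
  {K : IntermediateField k (LaurentSeries k)}
variable [FF.IsFunctionField L F] [FF.IsFunctionField k K]

namespace Degen

variable {X : Degen π ι K} {R : RatData π ι} {a₀ p m : ℕ} {r : F} {u : Bool → K}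

/-- The reductions of a section are nonzero. -/
theorem Sec.ne_all (hs : X.Sec R p m r u) (hS : X.S.Nonempty) (b : Bool) : u b ≠ 0 := by
  obtain ⟨s, hsS⟩ := hS
  intro h
  cases b
  · refine hs.ne s hsS ?_
    rw [(X.mem_glueSp.mp hs.glue).2 s hsS, h, show evalAt (X.Qf s) (0 : K) = 0 by
      simpa using evalAt_algebraMap (X.Qf s) (0 : k), mul_zero]
  · exact hs.ne s hsS (by rw [h]; simpa using evalAt_algebraMap s (0 : k))

/-- **The threshold is reached.** A section whose norms are `p`-th powers has an approximate root of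
depth `p * a₀`. -/
theorem Sec.approx_threshold (ht : Thresh R p a₀) (hfix : FixM R) (hl : X.LiftGlue R m)
    (hS : X.S.Nonempty) (hs : X.Sec R p m r u) {F' : Bool → Type*} [∀ b, Field (F' b)]
    (ND : ∀ b, NormData X R b (F' b)) (hW : ∀ b, ∃ W : F' b, W ^ p = (ND b).N r) :
    X.Approx R p m r u ((p : ℤ) * a₀) := by
  have hp := ht.prime
  have key : ∀ i : ℕ, 1 ≤ i → i ≤ p * a₀ → X.Approx R p m r u i := by
    intro i hi
    induction i, hi using Nat.le_induction with
    | base => intro _; exact_mod_cast hs.approx_one hl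
    | succ i hi ih =>
      intro hle
      obtain ⟨f, γ, h⟩ := ih (Nat.le_of_succ_le hle)
      have hi0 : (0 : ℤ) < i := by exact_mod_cast hi
      have hip : (i : ℤ) < (p : ℤ) * a₀ := by exact_mod_cast hle
      have hlead := fun b => (ND b).lead_form ht hfix hs (hs.ne_all hS) (hW b) hi0 hip h
      rw [Nat.cast_succ]
      by_cases hd : (p : ℤ) ∣ i
      · obtain ⟨j, hj⟩ := hd
        choose v hv using fun b => (hlead b).1
        have hpz : (0 : ℤ) < p := by exact_mod_cast hp.pos
        rw [hj] at hv h ⊢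
        exact h.step_power ht hl (pos_of_mul_pos_right (hj ▸ hi0) hpz.le)
          (lt_of_mul_lt_mul_left (hj ▸ hip) hpz.le) hs hv
      · choose c hc using fun b => (hlead b).2 hd
        exact h.step_scalar hS hi0 hs hc
  have := key (p * a₀) (Nat.one_le_iff_ne_zero.mpr (mul_ne_zero hp.ne_zero ht.a_pos.ne')) le_rfl
  exact_mod_cast this

/-- The product of two sections is a section, the degrees adding. -/
theorem Sec.mul {m' : ℕ} {r' : F} {u' : Bool → K} (hs : X.Sec R p m r u)
    (hs' : X.Sec R p m' r' u') :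
    X.Sec R p (m + m') (r * r') (fun b => u b * u' b) := by
  obtain ⟨hu, hg⟩ := X.mem_glueSp.mp hs.glue
  obtain ⟨hu', hg'⟩ := X.mem_glueSp.mp hs'.glue
  have hadd : ∀ b, u b * u' b ∈ riemannRochSpace ((m + m') • X.B) := fun b => by
    rw [mem_riemannRochSpace]
    intro v
    refine ((mem_riemannRochSpace.mp (hu b) v).mul (mem_riemannRochSpace.mp (hu' b) v)).mono
      (le_of_eq ?_)
    simp only [Finsupp.smul_apply, nsmul_eq_mul, Nat.cast_add]
    ring
  refine ⟨mul_add p m m' ▸ X.mul_mem_rr hs.mem hs'.mem, R.rc_mul hs.rc hs'.rc,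
    fun b => by rw [map_mul]; exact mul_mem (hs.int b) (hs'.int b), fun b => ?_,
    X.mem_glueSp.mpr ⟨hadd, fun s hsS => ?_⟩, fun s hsS => ?_⟩
  · rw [X.red_mul (mem_gInt_of_int (hs.int b)) (mem_gInt_of_int (hs'.int b)), hs.red, hs'.red,
      mul_pow]
  · rw [evalAt_mul (X.ordGE_S (hu true) (X.S_B s hsS)) (X.ordGE_S (hu' true) (X.S_B s hsS)),
      evalAt_mul (X.ordGE_S (hu false) (X.Qf_B s hsS)) (X.ordGE_S (hu' false) (X.Qf_B s hsS)),
      hg s hsS, hg' s hsS]
    ring
  · rw [evalAt_mul (X.ordGE_S (hu true) (X.S_B s hsS)) (X.ordGE_S (hu' true) (X.S_B s hsS))]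
    exact mul_ne_zero (hs.ne s hsS) (hs'.ne s hsS)

/-- Products of approximate roots. -/
theorem App.mul {m' : ℕ} {r' f f' : F} {u' : Bool → K} {γ γ' : L} {i : ℤ} (hi : 0 < i)
    (h : X.App R p m r u i f γ)
    (h' : X.App R p m' r' u' i f' γ') :
    X.App R p (m + m') (r * r') (fun b => u b * u' b) i (f * f') (γ * γ') ∧
      ∀ b, lead R X p i (r * r') (f * f') (γ * γ') b =
        lead R X p i r f γ b * u' b ^ p + lead R X p i r' f' γ' b * u b ^ p := by
  set ρi := R.ρ ^ i with hρi
  have hρ0 : ρi ≠ 0 := zpow_ne_zero i R.ρ_ne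
  have hρs := R.rho_pow_small hi
  -- `z`, `z'` are the quotients by `ρ ^ i`
  set z := ρi⁻¹ • (γ • r - f ^ p) with hz
  set z' := ρi⁻¹ • (γ' • r' - f' ^ p) with hz'
  have hzi : ∀ b, ι b z ∈ intSeries A := X.dvd_iff.mp h.dvd
  have hz'i : ∀ b, ι b z' ∈ intSeries A := X.dvd_iff.mp h'.dvd
  have hγr : γ • r = f ^ p + ρi • z := by
    rw [hz, smul_smul, mul_inv_cancel₀ hρ0, one_smul]; ring
  have hγr' : γ' • r' = f' ^ p + ρi • z' := by
    rw [hz', smul_smul, mul_inv_cancel₀ hρ0, one_smul]; ring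
  -- the product is `(f f') ^ p` plus `ρ ^ i` times an integral element
  have hd : (γ * γ') • (r * r') - (f * f') ^ p =
      ρi • (z * f' ^ p + z' * f ^ p + ρi • (z * z')) := by
    rw [← smul_mul_smul_comm, hγr, hγr']
    simp only [Algebra.smul_def]
    ring
  have hw : z * f' ^ p + z' * f ^ p + ρi • (z * z') ∈ X.intF :=
    add_mem (add_mem (mul_mem (X.mem_intF.mpr hzi) (pow_mem (X.mem_intF.mpr h'.int) p))
      (mul_mem (X.mem_intF.mpr hz'i) (pow_mem (X.mem_intF.mpr h.int) p)))
      (X.intF_smul hρs.1 (mul_mem (X.mem_intF.mpr hzi) (X.mem_intF.mpr hz'i)))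
  refine ⟨⟨X.mul_mem_rr h.mem h'.mem, R.rc_mul h.rc h'.rc,
    fun b => by rw [map_mul]; exact mul_mem (h.int b) (h'.int b),
    fun b => by
      rw [X.red_mul (mem_gInt_of_int (h.int b)) (mem_gInt_of_int (h'.int b)), h.red, h'.red],
    mul_mem h.γ_mem h'.γ_mem, ?_, ?_⟩, fun b => ?_⟩
  · rw [show γ * γ' - 1 = (γ - 1) * γ' + (γ' - 1) by ring]
    exact (h.γ_one.mul h'.γ_A).add h'.γ_one
  · rw [hd]
    have := X.dvd_smul (c := ρi) (X.dvd_one_iff.mpr (X.mem_intF.mp hw))
    rwa [mul_one] at this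
  -- whose cross term reduces to zero
  · have i1 := mul_mem (mem_gInt_of_int (π := π) (hzi b)) (pow_mem (mem_gInt_of_int (h'.int b)) p)
    have i2 := mul_mem (mem_gInt_of_int (π := π) (hz'i b)) (pow_mem (mem_gInt_of_int (h.int b)) p)
    have i3 := mul_mem (mem_gInt_of_int (π := π) (hzi b)) (mem_gInt_of_int (π := π) (hz'i b))
    rw [lead, hd, ← hρi, smul_smul, inv_mul_cancel₀ hρ0, one_smul,
      X.red_add (add_mem i1 i2) (X.int_smul hρs.1 i3), X.red_add i1 i2,
      show ρi • (z * z') = ((⟨ρi, hρs.1⟩ : A) : L) • (z * z') from rfl, X.red_smul _ i3, hρs.2,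
      zero_smul, add_zero,
      X.red_mul (mem_gInt_of_int (hzi b)) (pow_mem (mem_gInt_of_int (h'.int b)) p),
      X.red_mul (mem_gInt_of_int (hz'i b)) (pow_mem (mem_gInt_of_int (h.int b)) p),
      X.red_pow (mem_gInt_of_int (h'.int b)), X.red_pow (mem_gInt_of_int (h.int b)), h.red, h'.red]
    rfl

/-- A power of a section is a section. -/
theorem Sec.pow (hs : X.Sec R p m r u) (l : ℕ) :
    X.Sec R p ((l + 1) * m) (r ^ (l + 1)) (fun b => u b ^ (l + 1)) := by
  induction l with
  | zero => simpa using hs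
  | succ l ih =>
    rw [add_mul (l + 1) 1 m, one_mul, pow_succ]
    simp only [pow_succ _ (l + 1)]
    exact ih.mul hs

/-- A power of an approximate root is one of the power of the section, with the expected leading
term. -/
theorem App.pow {f : F} {γ : L} {i : ℤ} (hi : 0 < i)
    (h : X.App R p m r u i f γ) (l : ℕ) :
    X.App R p ((l + 1) * m) (r ^ (l + 1)) (fun b => u b ^ (l + 1)) i (f ^ (l + 1)) (γ ^ (l + 1)) ∧
      ∀ b, lead R X p i (r ^ (l + 1)) (f ^ (l + 1)) (γ ^ (l + 1)) b =
        (l + 1 : ℕ) • (lead R X p i r f γ b * u b ^ (p * l)) := by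
  induction l with
  | zero => simpa using h
  | succ l ih =>
    obtain ⟨h1, h2⟩ := ih
    obtain ⟨h3, h4⟩ := App.mul hi h1 h
    refine ⟨?_, fun b => ?_⟩
    · rw [add_mul (l + 1) 1 m, one_mul, pow_succ r, pow_succ f, pow_succ γ]
      simp only [pow_succ _ (l + 1)]
      exact h3
    · rw [pow_succ r, pow_succ f, pow_succ γ, h4, h2]
      simp only [nsmul_eq_mul, Nat.cast_add, Nat.cast_one, ← pow_mul]
      rw [show p * (l + 1) = p * l + p by ring, pow_add,
        show (l + 1) * p = p * l + p by ring, pow_add]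
      ring

/-- An automorphism of the coefficients compatible with the reduction. -/
structure CoeffAut (X : Degen π ι K) (R : RatData π ι) where
  /-- The automorphism of the constants. -/
  σ : L →+* L
  /-- Its action on functions. -/
  s : F →+* F
  /-- It acts on expansions coefficientwise. -/
  s_coeff : ∀ b f n, (ι b (s f)).coeff n = σ ((ι b f).coeff n)
  /-- It preserves the sections of multiples of `A0`. -/
  s_rr : ∀ (m : ℕ) f, f ∈ riemannRochSpace (m • X.A0) → s f ∈ riemannRochSpace (m • X.A0)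
  /-- `σ` preserves `M`. -/
  σ_mem : ∀ c ∈ R.M, σ c ∈ R.M
  /-- `σ` preserves `A`. -/
  σ_A : ∀ c ∈ A, σ c ∈ A
  /-- It is trivial on residues. -/
  σ_red : ∀ (c : A) (h : σ c ∈ A), π ⟨σ c, h⟩ = π c

namespace CoeffAut

variable (T : CoeffAut X R)

/-- The automorphism preserves integrality of expansions. -/
theorem int {b : Bool} {f : F} (h : ι b f ∈ intSeries A) : ι b (T.s f) ∈ intSeries A :=
  mem_intSeries_iff.mpr fun n => by rw [T.s_coeff]; exact T.σ_A _ (mem_intSeries_iff.mp h n)

/-- The automorphism preserves the reductions of integral functions. -/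
theorem red {b : Bool} {f : F} (h : ι b f ∈ intSeries A) : X.red b (T.s f) = X.red b f := by
  refine Subtype.ext (HahnSeries.ext (funext fun n => ?_))
  rw [X.coe_red_int h, X.coe_red_int (T.int h)]
  refine Eq.trans ?_ (T.σ_red ⟨_, mem_intSeries_iff.mp h n⟩ (T.σ_A _ (mem_intSeries_iff.mp h n)))
  exact congrArg π (Subtype.ext (T.s_coeff b f n))

/-- The automorphism preserves the functions with coefficients in `M`. -/
theorem rc {f : F} (h : R.RC f) : R.RC (T.s f) := fun b =>
  R.mem_serM.mpr fun n => by rw [T.s_coeff]; exact T.σ_mem _ (h.coeff R b n)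

/-- The automorphism of functions is `σ`-semilinear. -/
theorem s_smul (c : L) (f : F) : T.s (c • f) = T.σ c • T.s f := by
  refine (ι true).injective (HahnSeries.ext (funext fun n => ?_))
  rw [T.s_coeff, RatData.coeff_smul (X := X), RatData.coeff_smul (X := X), T.s_coeff, map_mul]

/-- It carries sections to sections with the same reductions. -/
theorem sec (hs : X.Sec R p m r u) : X.Sec R p m (T.s r) u :=
  { mem := T.s_rr _ _ hs.mem
    rc := T.rc hs.rc
    int := fun b => T.int (hs.int b)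
    red := fun b => by rw [T.red (hs.int b), hs.red]
    glue := hs.glue
    ne := hs.ne }

/-- A transformation multiplying `ρ ^ i` by `χ` carries approximate roots to approximate roots
and multiplies the leading term by the residue of `χ`. -/
theorem app {i : ℤ} {f : F} {γ : L} (h : X.App R p m r u i f γ) {χ : A}
    (hχ : T.σ (R.ρ ^ i) = R.ρ ^ i * χ) :
    X.App R p m (T.s r) u i (T.s f) (T.σ γ) ∧
      ∀ b, lead R X p i (T.s r) (T.s f) (T.σ γ) b = π χ • lead R X p i r f γ b := by
  have hint := X.dvd_iff.mp h.dvd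
  set z := (R.ρ ^ i)⁻¹ • (γ • r - f ^ p) with hz
  have hd : T.σ γ • T.s r - T.s f ^ p = R.ρ ^ i • ((χ : L) • T.s z) := by
    rw [smul_smul, ← hχ, hz, ← T.s_smul, ← T.s_smul, smul_smul,
      mul_inv_cancel₀ (zpow_ne_zero i R.ρ_ne), one_smul, map_sub, map_pow]
  have hi' : ∀ b, ι b ((χ : L) • T.s z) ∈ intSeries A := fun b => by
    rw [Algebra.smul_def, map_mul]; exact mul_mem (X.series_algebraMap χ.2) (T.int (hint b))
  refine ⟨⟨T.s_rr _ _ h.mem, T.rc h.rc, fun b => T.int (h.int b),
    fun b => by rw [T.red (h.int b), h.red], T.σ_mem _ h.γ_mem, ?_, ?_⟩, fun b => ?_⟩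
  · refine ⟨sub_mem (T.σ_A _ h.γ_A) (one_mem A), ?_⟩
    refine Eq.trans ?_ h.γ_one.2
    rw [show (⟨T.σ γ - 1, _⟩ : A) = ⟨T.σ γ, T.σ_A _ h.γ_A⟩ - 1 from rfl,
      show (⟨γ - 1, h.γ_one.1⟩ : A) = ⟨γ, h.γ_A⟩ - 1 from rfl, map_sub, map_sub,
      T.σ_red ⟨γ, h.γ_A⟩]
  · rw [hd]
    have := X.dvd_smul (c := R.ρ ^ i) (X.dvd_one_iff.mpr hi')
    rwa [mul_one] at this
  · rw [lead, hd, smul_smul, inv_mul_cancel₀ (zpow_ne_zero i R.ρ_ne), one_smul,
      X.red_smul _ (mem_gInt_of_int (T.int (hint b))), T.red (hint b)]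
    rfl

end CoeffAut

/-- **A product killing the leading term at the threshold passes it**: when `π χ = -(l + 1)`. -/
theorem eigen_approx (ht : Thresh R p a₀) (T : CoeffAut X R) {χ : A}
    (hχ : T.σ (R.ρ ^ ((p : ℤ) * a₀)) = R.ρ ^ ((p : ℤ) * a₀) * χ) {l : ℕ}
    (hl : π χ + (l + 1 : ℕ) = 0) (hs : X.Sec R p m r u) (h : X.Approx R p m r u ((p : ℤ) * a₀)) :
    X.Approx R p (m + (l + 1) * m) (T.s r * r ^ (l + 1)) (fun b => u b * u b ^ (l + 1))
      ((p : ℤ) * a₀ + 1) := by
  obtain ⟨f, γ, ha⟩ := h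
  have hi : (0 : ℤ) < (p : ℤ) * a₀ := by
    have : (0 : ℤ) < p := by exact_mod_cast ht.prime.pos
    have : (0 : ℤ) < a₀ := by exact_mod_cast ht.a_pos
    positivity
  obtain ⟨hT, hTl⟩ := T.app ha hχ
  obtain ⟨hP, hPl⟩ := App.pow hi ha l
  obtain ⟨hM, hMl⟩ := App.mul hi hT hP
  refine ⟨_, _, hM.next ((T.sec hs).mul (hs.pow l)) fun b => ?_⟩
  rw [hMl, hTl, hPl]
  have h2 : ((l + 1 : ℕ) : K) = algebraMap k K ((l + 1 : ℕ) : k) := (map_natCast _ _).symm
  rw [nsmul_eq_mul, Algebra.smul_def, ← pow_mul, h2]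
  have h3 : algebraMap k K (π χ) = -algebraMap k K ((l + 1 : ℕ) : k) := by
    rw [← map_neg, eq_neg_of_add_eq_zero_left hl]
  rw [h3, show (l + 1) * p = p * l + p by ring, pow_add]
  ring

end Degen

end Fermat.BAD

end
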