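import Fermat.Agent.BAD.Wit.Threshold

/-!
# Classes with trivial reductions are eigen for the tame character

For a class killed by `p` whose two reductions are `p`-th powers and whose norms are `p`-th powers,
`σ x + (l + 1) x = 0` as soon as the character of `σ` at the threshold is `-(l + 1)`.

This assembles the `Wit` files. For two sections of the class without common zero (`exists_sec`
over `Lift`) approximate `p`-th roots are improved up to the threshold `p a₀` (`Step`, with `Series`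
and `Push` to see through the norms), past it for `σ r * r ^ (l + 1)` (`Threshold`), then
indefinitely (`Deep`, `Linear`), so a root exists (`Exact`).
-/

set_option autoImplicit false

attribute [local instance 10000] SubalgebraClass.toAlgebra HahnSeries.powerSeriesAlgebra

noncomputable section

open AlgebraicCurve

namespace Fermat.BAD

open Fermat.FF Fermat.RED.Model

variable {L : Type*} [Field L] {A : ValuationSubring L}
variable {k : Type*} [Field k] [IsAlgClosed L] [IsAlgClosed k]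
variable {F : Type*} [Field F] [Algebra L F]
variable {π : A →+* k} {ι : Bool → F →+* LaurentSeries L}
  {K : IntermediateField k (LaurentSeries k)}
variable [FF.IsFunctionField L F] [FF.IsFunctionField k K]

namespace Degen

variable (X : Degen π ι K)

/-- Two exact sections without common zero, nonzero at the glued points, at every large level. -/
theorem exists_cover (m0 : ℕ) : ∃ (m : ℕ) (h h' : K), m0 ≤ m ∧
    (fun _ : Bool => h) ∈ X.glueSp (fun _ => 1) m ∧ (fun _ : Bool => h') ∈ X.glueSp (fun _ => 1) m ∧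
    (∀ s ∈ X.S, evalAt s h ≠ 0 ∧ evalAt s h' ≠ 0) ∧ h ≠ 0 ∧ h' ≠ 0 ∧
    ∀ v : Place k K, v.ord h = -((m : ℤ) * X.B v) ∨ v.ord h' = -((m : ℤ) * X.B v) := by
  classical
  set U := X.S ∪ X.S.image X.Qf
  have hUB : ∀ t ∈ U, X.B t = 0 := fun t ht => by
    rcases Finset.mem_union.mp ht with ht | ht
    · exact X.S_B t ht
    · obtain ⟨s, hs, rfl⟩ := Finset.mem_image.mp ht
      exact X.Qf_B s hs
  set b := m0 + U.card + 2 * genusFF k K + 1
  have hB := X.deg_B_pos
  -- an exact section equal to one at the glued points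
  obtain ⟨h, hm, hne, hp, h1⟩ := exists_exact_one X.B_nonneg X.B_ne U hUB b
    (by push_cast [b]; nlinarith)
  set Z := ((divOf k h).support.filter fun v => X.B v = 0) with hZ
  have hcard : (Z.card : ℤ) ≤ b * Divisor.degree X.B := by
    have hd : Divisor.degree (divOf k h + b • X.B) = b * Divisor.degree X.B := by
      rw [map_add, degree_divOf, zero_add, map_nsmul, nsmul_eq_mul]
    rw [← hd, degree_eq_sum _ _ subset_rfl]
    have hnn : ∀ v, 0 ≤ (divOf k h + b • X.B) v := fun v => by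
      have := (mem_riemannRochSpace.mp hm v).le_ord hne
      simp only [Finsupp.add_apply, Finsupp.smul_apply, divOf_apply, nsmul_eq_mul] at this ⊢
      linarith
    have hsub : Z ⊆ (divOf k h + b • X.B).support := fun v hv => by
      rw [hZ, Finset.mem_filter, Finsupp.mem_support_iff] at hv
      rw [divOf_apply] at hv
      simp [Finsupp.mem_support_iff, hv.2, hv.1]
    calc (Z.card : ℤ) = ∑ v ∈ Z, 1 := by simp
      _ ≤ ∑ v ∈ Z, (divOf k h + b • X.B) v := Finset.sum_le_sum fun v hv => by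
          have h0 := Finsupp.mem_support_iff.mp (hsub hv)
          have := hnn v
          omega
      _ ≤ _ := Finset.sum_le_sum_of_subset_of_nonneg hsub fun v _ _ => hnn v
  -- another, also one at the zeros of the first
  obtain ⟨h', hm', hne', hp', h1'⟩ := exists_exact_one X.B_nonneg X.B_ne (U ∪ Z) (fun t ht => by
    rcases Finset.mem_union.mp ht with ht | ht
    · exact hUB t ht
    · exact (Finset.mem_filter.mp ht).2) (2 * b) (by
    have := Finset.card_union_le U Z
    push_cast [b] at hcard ⊢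
    nlinarith)
  have hsm : ∀ (z : K) {c : ℕ}, z ∈ riemannRochSpace (c • X.B) → (∀ t ∈ U, evalAt t z = 1) →
      (fun _ : Bool => z) ∈ X.glueSp (fun _ => 1) c := fun z c hz h1 =>
    X.mem_glueSp.mpr ⟨fun _ => hz, fun s hs => by
      rw [h1 s (Finset.mem_union_left _ hs),
        h1 (X.Qf s) (Finset.mem_union_right _ (Finset.mem_image_of_mem _ hs)), one_mul]⟩
  have hm2 : h * h ∈ riemannRochSpace ((2 * b) • X.B) := by
    rw [mem_riemannRochSpace] at hm ⊢
    intro v
    refine ((hm v).mul (hm v)).mono (le_of_eq ?_)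
    simp only [Finsupp.smul_apply, nsmul_eq_mul, Nat.cast_mul, Nat.cast_ofNat]
    ring
  have hh1 : ∀ t ∈ U, evalAt t (h * h) = 1 := fun t ht => by
    obtain ⟨o, e⟩ := h1 t ht
    rw [evalAt_mul o o, e, one_mul]
  refine ⟨2 * b, h * h, h', by simp only [b]; omega, hsm _ hm2 hh1,
    hsm _ hm' (fun t ht => (h1' t (Finset.mem_union_left _ ht)).2), fun s hs => ?_,
    mul_ne_zero hne hne, hne', fun v => ?_⟩
  · rw [hh1 s (Finset.mem_union_left _ hs),
      (h1' s (Finset.mem_union_left _ (Finset.mem_union_left _ hs))).2]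
    exact ⟨one_ne_zero, one_ne_zero⟩
  · by_cases hv : X.B v = 0
    · rw [hv, mul_zero, neg_zero]
      by_cases hz : v.ord h = 0
      · exact Or.inl (by rw [v.ord_mul hne hne, hz, add_zero])
      · obtain ⟨o, e⟩ := h1' v (Finset.mem_union_right _ (by
          rw [hZ, Finset.mem_filter, Finsupp.mem_support_iff, divOf_apply]; exact ⟨hz, hv⟩))
        exact Or.inr (Degen.ord_eq_zero_of_eval hne' o (by rw [e]; exact one_ne_zero))
    · exact Or.inr (hp' v hv)

variable {X} {R : RatData π ι} {a₀ p m l₀ : ℕ} {r : F} {u : Bool → K}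
  {D D' : Divisor L F} {y : F} {c1 c0 e : L} {ϖ : L}

/-- If `a ^ n Y` has poles bounded by `n c A0` and `div Y = n E` then `a` is a section of `E + c
A0`. -/
theorem mem_sect_of_pow {n : ℕ} (hn : n ≠ 0) {a Y : F} {E : Divisor L F} (hY0 : Y ≠ 0)
    (hdiv : divOf L Y = n • E) {c : ℕ} (h : a ^ n * Y ∈ riemannRochSpace ((n * c) • X.A0)) :
    a ∈ X.sect E c := by
  rw [sect, mem_riemannRochSpace]
  intro v
  rcases eq_or_ne a 0 with ha | ha
  · rw [ha]; exact ordGE_zero _ _
  refine (ordGE_iff_of_ne ha).mpr ?_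
  have h1 := (mem_riemannRochSpace.mp h v).le_ord (mul_ne_zero (pow_ne_zero n ha) hY0)
  rw [v.ord_mul (pow_ne_zero n ha) hY0, FF.ord_pow,
    show v.ord Y = (n : ℤ) * E v by rw [← divOf_apply (K := L), hdiv]; simp] at h1
  simp only [Finsupp.add_apply, Finsupp.smul_apply, nsmul_eq_mul, Nat.cast_mul] at h1 ⊢
  have : (0 : ℤ) < n := by exact_mod_cast Nat.pos_of_ne_zero hn
  nlinarith

/-- Conversely, for a section `a` of `E + c A0`. -/
theorem pow_mul_mem_of_sect {n : ℕ} {a Y : F} {E : Divisor L F} (hY0 : Y ≠ 0)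
    (hdiv : divOf L Y = n • E) {c : ℕ} (h : a ∈ X.sect E c) :
    a ^ n * Y ∈ riemannRochSpace ((n * c) • X.A0) := by
  rw [mem_riemannRochSpace]
  intro v
  have hY : OrdGE v Y ((n : ℤ) * E v) := (ordGE_iff_of_ne hY0).mpr
    (le_of_eq (by rw [← divOf_apply (K := L), hdiv]; simp))
  refine (((mem_riemannRochSpace.mp h v).pow n).mul hY).mono (le_of_eq ?_)
  simp only [Finsupp.add_apply, Finsupp.smul_apply, nsmul_eq_mul, Nat.cast_mul]
  ring

/-- `y` rescaled for component `b`: `c1 y` on the first, `(c1 / e ^ p) y` on the second. -/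
def facY (y : F) (c1 e : L) (p : ℕ) (b : Bool) : F := (c1 / sc e b ^ p) • y

/-- The product of a conjugate of `facY` with a power of it is nonzero, with divisor `p` times
`D' + n D`. -/
theorem divOf_facY_mul_pow (h : X.Pres R p l₀ D y c1 c0) (T : CoeffAut X R)
    (hD' : divOf L (T.s y) = p • D') (he0 : e ≠ 0) (n : ℕ) (b : Bool) :
    T.s (facY y c1 e p b) * facY y c1 e p b ^ n ≠ 0 ∧
      divOf L (T.s (facY y c1 e p b) * facY y c1 e p b ^ n) = p • (D' + n • D) := by
  have hc : c1 / sc e b ^ p ≠ 0 :=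
    div_ne_zero h.c1_ne (pow_ne_zero _ (by cases b; exacts [he0, one_ne_zero]))
  have hY0 : facY y c1 e p b ≠ 0 := smul_ne_zero hc h.y_ne
  refine ⟨mul_ne_zero ((_root_.map_ne_zero _).mpr hY0) (pow_ne_zero _ hY0), ?_⟩
  ext v
  have e1 : v.ord (T.s (facY y c1 e p b)) = (p : ℤ) * D' v := by
    rw [facY, T.s_smul, ← divOf_apply (K := L),
      divOf_const_smul ((_root_.map_ne_zero _).mpr hc) ((_root_.map_ne_zero _).mpr h.y_ne), hD']
    simp
  have e2 : v.ord (facY y c1 e p b) = (p : ℤ) * D v := by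
    rw [facY, ← divOf_apply (K := L), divOf_const_smul hc h.y_ne, h.div_eq]; simp
  rw [divOf_apply, v.ord_mul ((_root_.map_ne_zero _).mpr hY0) (pow_ne_zero _ hY0),
    FF.ord_pow, e1, e2]
  simp only [Finsupp.add_apply, Finsupp.smul_apply, nsmul_eq_mul]
  ring

/-- If `g ^ n` is a nonzero constant times `a ^ n Y` and `div Y = n E`, then `g / a` has divisor
`E`. -/
theorem divOf_div_of_pow_eq {n : ℕ} (hn : n ≠ 0) {g a Y : F} {E : Divisor L F} {γ : L} (hγ : γ ≠ 0)
    (ha : a ≠ 0) (hY0 : Y ≠ 0) (hdiv : divOf L Y = n • E) (hg : g ^ n = γ • (a ^ n * Y)) :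
    g / a ≠ 0 ∧ divOf L (g / a) = E := by
  have hq : (g / a) ^ n = γ • Y := by
    rw [div_pow, hg, mul_comm, ← smul_mul_assoc, mul_div_assoc,
      div_self (pow_ne_zero n ha), mul_one]
  refine ⟨fun e0 => smul_ne_zero hγ hY0 (by rw [← hq, e0, zero_pow hn]), ?_⟩
  ext v
  have h5 := congrArg (fun z => v.ord z) hq
  simp only [FF.ord_pow] at h5
  rw [← divOf_apply (K := L) (γ • Y), divOf_const_smul hγ hY0, hdiv] at h5
  simp only [Finsupp.smul_apply, nsmul_eq_mul] at h5
  rw [divOf_apply]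
  exact mul_left_cancel₀ (by exact_mod_cast hn) h5

/-- When both reductions of a presentation are `p`-th powers there is in large degree a section
with prescribed leading pair, not vanishing at the glued points, together with its two factors. -/
theorem exists_sec (hp : p.Prime) (hchar : (p : k) = 0) (h : X.Pres R p l₀ D y c1 c0)
    (hϖ : ϖ ≠ 0) (hN : X.Node ϖ) (he : e ∈ R.M) (he0 : e ≠ 0) (hμ : c1 / (e ^ p * c0) ∈ A)
    (hν : e ^ p * c0 / c1 ∈ A) (hμ1 : π ⟨_, hμ⟩ = 1) {hh : Bool → K}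
    (h1 : X.red true (c1 • y) = hh true ^ p) (h0 : X.red false (c0 • y) = hh false ^ p)
    (hm0 : X.N0 ≤ m) (hm : (2 * genusFF k K : ℤ) + 2 * X.S.card +
      X.exc p (X.red true (c1 • y)) 0 + X.flip.exc p (X.red false (c0 • y)) 1 ≤ m)
    (hu : u ∈ X.glueSp (fun _ => 1) m) (hne : ∀ s ∈ X.S, evalAt s (u true) ≠ 0) :
    ∃ w : F, X.Sec R p m (w ^ p * (c1 • y)) u ∧
      ∀ b, X.Fac R p m (w ^ p * (c1 • y)) b (sc e b • w) (facY y c1 e p b) := by
  have : Fact p.Prime := ⟨hp⟩
  have : CharP k p := (CharP.charP_iff_prime_eq_zero hp).mpr hchar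
  obtain ⟨w, hw, hwR, hwi, hwr⟩ := h.exists_pair hp.ne_zero hϖ hN he he0 hμ hν h1 h0 (γ := 1)
    (by rw [one_pow, hμ1]) (fun a b hab => frobenius_inj k p hab) hm0 hm hu
  have hsc : ∀ b, sc e b ≠ 0 := fun b => by cases b; exacts [he0, one_ne_zero]
  have hfac : ∀ b, w ^ p * (c1 • y) = (sc e b • w) ^ p * facY y c1 e p b := fun b => by
    rw [facY, smul_pow, smul_mul_smul_comm, mul_div_cancel₀ _ (pow_ne_zero p (hsc b)),
      mul_smul_comm]
  have hY : ∀ b, X.Prim b (facY y c1 e p b) ∧ X.red b (facY y c1 e p b) = hh b ^ p := fun b => by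
    cases b
    · have hY0 : facY y c1 e p false = ((⟨_, hμ⟩ : A) : L) • (c0 • y) := by
        rw [facY, smul_smul]
        congr 1
        change c1 / e ^ p = c1 / (e ^ p * c0) * c0
        have := h.c0_ne
        field_simp
      rw [hY0]
      have hr : X.red false (((⟨_, hμ⟩ : A) : L) • (c0 • y)) = hh false ^ p := by
        rw [X.red_smul _ h.prim_false.1, hμ1, one_smul, h0]
      exact ⟨⟨X.int_smul hμ h.prim_false.1, by rw [hr, ← h0]; exact h.prim_false.2⟩, hr⟩
    · have hY1 : facY y c1 e p true = c1 • y := by simp [facY, sc]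
      rw [hY1]; exact ⟨h.prim_true, h1⟩
  have hwg : ∀ b, sc e b • w ∈ gInt π (ι b) := fun b => mem_gInt_of_int (hwi b)
  refine ⟨w, ⟨h.pow_mul_mem hw c1, ?_, fun b => ?_, fun b => ?_, hu, hne⟩,
    fun b => ⟨hfac b, hwg b, (hY b).1⟩⟩
  · refine R.rc_mul (R.rc_pow (R.rc_of_mem hwR) p) (R.rc_smul (X := X) h.c1_mem ?_)
    rw [← inv_inv y]
    exact R.rc_inv (R.rc_of_mem h.inv_mem)
  · refine X.series_int_of_mem ?_ (h.pow_mul_mem hw c1)
    rw [hfac b]; exact mul_mem (pow_mem (hwg b) p) (hY b).1.1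
  · rw [hfac b, X.red_mul (pow_mem (hwg b) p) (hY b).1.1, X.red_pow (hwg b),
      (hY b).2, ← mul_pow, hwr]

/-- The product of a conjugate of a factor with a power of it is a factor. -/
theorem Fac.mul_pow {b : Bool} {a Y : F} (hf : X.Fac R p m r b a Y) {m' c : ℕ} (T : CoeffAut X R)
    (hint : ι b a ∈ intSeries A) (hY : Y⁻¹ ∈ riemannRochSpace (c • X.A0)) (n : ℕ) :
    X.Fac R p m' (T.s r * r ^ n) b (T.s a * a ^ n) (T.s Y * Y ^ n) := by
  refine ⟨?_, mul_mem (mem_gInt_of_int (T.int hint)) (pow_mem hf.int _),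
    Prim.mul ?_ (hf.prim.pow n)⟩
  · rw [hf.eq, map_mul, map_pow, _root_.mul_pow, _root_.mul_pow, ← pow_mul, ← pow_mul,
      mul_comm n p]
    ring
  · obtain ⟨hpi, hpr⟩ := X.prim_inv hf.prim
    have hi : ι b Y⁻¹ ∈ intSeries A := X.series_int_of_mem hpi.1 hY
    have hp' : X.Prim b (T.s Y⁻¹) :=
      ⟨mem_gInt_of_int (T.int hi), by rw [T.red hi]; exact hpi.2⟩
    have := (X.prim_inv hp').1
    rwa [map_inv₀, inv_inv] at this

/-- **Eigen classes**: if `π χ = -(l + 1)` then `D' + (l + 1) D` is principal, `D'` being the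
transform of `D`. -/
theorem eigen_principal (ht : Thresh R p a₀) (hfix : FixM R) {ζ : L} (hζ : IsPrimitiveRoot ζ p)
    (hlam : R.Val (1 - ζ) a₀) (hl : ∀ n, X.N0 ≤ n → X.LiftGlue R n) (hS : X.S.Nonempty)
    (h : X.Pres R p l₀ D y c1 c0) (hϖ : ϖ ≠ 0) (hN : X.Node ϖ) (he : e ∈ R.M) (he0 : e ≠ 0)
    (hμ : c1 / (e ^ p * c0) ∈ A) (hν : e ^ p * c0 / c1 ∈ A) (hμ1 : π ⟨_, hμ⟩ = 1) {hh : Bool → K}
    (h1 : X.red true (c1 • y) = hh true ^ p) (h0 : X.red false (c0 • y) = hh false ^ p)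
    {F' : Bool → Type*} [∀ b, Field (F' b)] (ND : ∀ b, NormData X R b (F' b))
    (hW : ∀ b, ∃ W : F' b, W ^ p = (ND b).N y) (T : CoeffAut X R) (hD' : divOf L (T.s y) = p • D')
    {χ : A} (hχ : T.σ (R.ρ ^ ((p : ℤ) * a₀)) = R.ρ ^ ((p : ℤ) * a₀) * χ) {l : ℕ}
    (hlχ : π χ + (l + 1 : ℕ) = 0) :
    ∃ g : F, g ≠ 0 ∧ divOf L g = D' + (l + 1) • D := by
  have hp := ht.prime
  have hn := hp.ne_zero
  obtain ⟨m₁, hm₁⟩ : ∃ m₁ : ℕ, (2 * genusFF k K : ℤ) + 2 * X.S.card +
      X.exc p (X.red true (c1 • y)) 0 + X.flip.exc p (X.red false (c0 • y)) 1 ≤ m₁ :=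
    ⟨_, Int.self_le_toNat _⟩
  obtain ⟨m, h₁, h₂, hm0, hg1, hg2, hev, hne1, hne2, hcov⟩ := X.exists_cover (X.N0 + m₁)
  have hmle : (2 * genusFF k K : ℤ) + 2 * X.S.card +
      X.exc p (X.red true (c1 • y)) 0 + X.flip.exc p (X.red false (c0 • y)) 1 ≤ m :=
    hm₁.trans (by exact_mod_cast (show m₁ ≤ m by omega))
  obtain ⟨w, hs, hfac⟩ := exists_sec hp ht.char h hϖ hN he he0 hμ hν hμ1 h1 h0 (by omega) hmle hg1
    fun s hs => (hev s hs).1
  obtain ⟨w', hs', hfac'⟩ := exists_sec hp ht.char h hϖ hN he he0 hμ hν hμ1 h1 h0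
    (by omega) hmle hg2
    fun s hs => (hev s hs).2
  have hnorm : ∀ (z : F) b, ∃ W : F' b, W ^ p = (ND b).N (z ^ p * (c1 • y)) := fun z b => by
    obtain ⟨g, hg⟩ := IsAlgClosed.exists_pow_nat_eq c1 hp.pos
    obtain ⟨W, hW'⟩ := hW b
    refine ⟨(ND b).N (z * algebraMap L F g) * W, ?_⟩
    rw [mul_pow, hW', ← map_pow, mul_pow, ← map_pow (algebraMap L F), hg, ← map_mul, mul_assoc,
      ← Algebra.smul_def]
  -- roots at the threshold, then one step past it
  have ha := hs.approx_threshold ht hfix (hl m (by omega)) hS ND (hnorm w)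
  have ha' := hs'.approx_threshold ht hfix (hl m (by omega)) hS ND (hnorm w')
  have hb := eigen_approx ht T hχ hlχ hs ha
  have hb' := eigen_approx ht T hχ hlχ hs' ha'
  set E := D' + (l + 1) • D
  set m' := m + (l + 1) * m
  set Y := fun b => T.s (facY y c1 e p b) * facY y c1 e p b ^ (l + 1)
  have hYne := fun b => (divOf_facY_mul_pow (e := e) h T hD' he0 (l + 1) b).1
  have hdiv := fun b => (divOf_facY_mul_pow (e := e) h T hD' he0 (l + 1) b).2
  -- the two products with their factors form a coprime pair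
  have mkFac : ∀ {z : F} {v : Bool → K}, X.Sec R p m (z ^ p * (c1 • y)) v →
      (∀ b, X.Fac R p m (z ^ p * (c1 • y)) b (sc e b • z) (facY y c1 e p b)) →
      (∀ b, sc e b • z ∈ gInt π (ι b) → ι b (sc e b • z) ∈ intSeries A) →
      X.Sec R p m' (T.s (z ^ p * (c1 • y)) * (z ^ p * (c1 • y)) ^ (l + 1))
        (fun b => v b * v b ^ (l + 1)) →
      ∀ b, X.Fac R p m' (T.s (z ^ p * (c1 • y)) * (z ^ p * (c1 • y)) ^ (l + 1)) b
          (T.s (sc e b • z) * (sc e b • z) ^ (l + 1)) (Y b) ∧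
        T.s (sc e b • z) * (sc e b • z) ^ (l + 1) ∈ X.sect E m' := by
    intro z v _ hf hint hsec b
    have hfac := (hf b).mul_pow (m' := m') T (hint b (hf b).int) (c := p * l₀) (by
      rw [facY, Algebra.smul_def, mul_inv, ← map_inv₀, ← Algebra.smul_def]
      exact Submodule.smul_mem _ _ h.inv_rr) (l + 1)
    exact ⟨hfac, mem_sect_of_pow hn (hYne b) (hdiv b) (hfac.eq ▸ hsec.mem)⟩
  have hmemD : ∀ {z : F}, z ^ p * (c1 • y) ∈ riemannRochSpace ((p * m) • X.A0) → z ∈ X.sect D m :=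
    fun {z} hz => mem_sect_of_pow hn (smul_ne_zero h.c1_ne h.y_ne)
      (by rw [divOf_const_smul h.c1_ne h.y_ne, h.div_eq]) hz
  have hsec := (T.sec hs).mul (hs.pow l)
  have hsec' := (T.sec hs').mul (hs'.pow l)
  have hF1 := mkFac hs hfac (fun b => h.sect_int (hmemD hs.mem)) hsec
  have hF2 := mkFac hs' hfac' (fun b => h.sect_int (hmemD hs'.mem)) hsec'
  have hP : X.Pair R p m' (T.s (w ^ p * (c1 • y)) * (w ^ p * (c1 • y)) ^ (l + 1))
      (T.s (w' ^ p * (c1 • y)) * (w' ^ p * (c1 • y)) ^ (l + 1))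
      (fun b => h₁ * h₁ ^ (l + 1)) (fun b => h₂ * h₂ ^ (l + 1)) E := by
    refine ⟨hsec, hsec', fun b => ⟨_, _, Y b, (hF1 b).1, (hF2 b).1, (hF1 b).2, (hF2 b).2,
      fun z hz => pow_mul_mem_of_sect (hYne b) (hdiv b) hz⟩,
      fun b => mul_ne_zero hne1 (pow_ne_zero _ hne1),
      fun b => mul_ne_zero hne2 (pow_ne_zero _ hne2),
      fun b v => ?_⟩
    rcases hcov v with hv | hv
    · left
      rw [v.ord_mul hne1 (pow_ne_zero _ hne1), FF.ord_pow, hv]
      simp only [m', Nat.cast_add, Nat.cast_mul, Nat.cast_one]; ring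
    · right
      rw [v.ord_mul hne2 (pow_ne_zero _ hne2), FF.ord_pow, hv]
      simp only [m', Nat.cast_add, Nat.cast_mul, Nat.cast_one]; ring
  have hall := hP.approx_all ht hζ hlam (hl m' (by omega)) hb hb'
  obtain ⟨g, γ, hγ, -, hg⟩ := exact_of_approx hsec fun j =>
    ⟨(p : ℤ) * a₀ + 1 + j, by nlinarith [Int.natCast_nonneg p], (hall j).1⟩
  -- the root gives a function with divisor `E`
  set a := T.s (sc e true • w) * (sc e true • w) ^ (l + 1)
  have heq : T.s (w ^ p * (c1 • y)) * (w ^ p * (c1 • y)) ^ (l + 1) = a ^ p * Y true :=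
    (hF1 true).1.eq
  have hr0 : T.s (w ^ p * (c1 • y)) * (w ^ p * (c1 • y)) ^ (l + 1) ≠ 0 := fun e0 => by
    have := hsec.red true
    rw [e0, X.red_zero] at this
    exact pow_ne_zero p (mul_ne_zero hne1 (pow_ne_zero _ hne1)) this.symm
  have ha0 : a ≠ 0 := fun e0 => hr0 (by rw [heq, e0, zero_pow hn, zero_mul])
  exact ⟨g / a, divOf_div_of_pow_eq hn hγ ha0 (hYne true) (hdiv true) (by rw [hg, heq])⟩

end Degen

end Fermat.BAD

end
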