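import Fermat.Agent.BAD.Wit.Step
import Mathlib.RingTheory.RootsOfUnity.PrimitiveRoots

/-!
# The linear regime

Past the threshold the leading terms of two approximate roots of `a ^ p * Y` and `a' ^ p * Y`
differ by a product bounded by the sections, so a leading term divided by `u ^ p` times `u` has
bounded poles.
-/

set_option autoImplicit false
set_option linter.unusedSectionVars false

attribute [local instance 10000] SubalgebraClass.toAlgebra HahnSeries.powerSeriesAlgebra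

noncomputable section

open AlgebraicCurve

namespace Fermat.BAD

open Fermat.FF Fermat.RED.Model

variable {L : Type*} [Field L] {A : ValuationSubring L}
variable {k : Type*} [Field k] [IsAlgClosed L] [IsAlgClosed k]
variable {F : Type*} [Field F] [Algebra L F]
variable {π : A →+* k} {ι : Bool → F →+* LaurentSeries L}
  {K : IntermediateField k (LaurentSeries k)}
variable [FF.IsFunctionField L F] [FF.IsFunctionField k K]

namespace Degen

variable (X : Degen π ι K)

/-- The glued points on a component. -/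
def nodes (b : Bool) : Finset (Place k K) :=
  haveI := Classical.decEq (Place k K)
  cond b X.S (X.S.image X.Qf)

/-- The glued points of the second component. -/
theorem mem_nodes_false {v : Place k K} : v ∈ X.nodes false ↔ ∃ s ∈ X.S, X.Qf s = v := by
  simp [nodes]

/-- Away from the glued points of either component the poles of a reduction are at `B`. -/
theorem ordGE_off_bool {b : Bool} {f : F} {m : ℕ} (hm : f ∈ riemannRochSpace (m • X.A0))
    (hf : f ∈ gInt π (ι b)) {v : Place k K} (hv : v ∉ X.nodes b) :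
    OrdGE v (X.red b f) (-((m : ℤ) * X.B v)) := by
  cases b
  · have := X.flip.ordGE_off (f := f) (by rwa [X.flip_A0]) (by simpa using hf) (v := v) (by
      rw [flip_S]; simpa [nodes] using hv)
    simpa [flip_red, flip_B] using this
  · exact X.ordGE_off hm hf hv

/-- `red` commutes with finite products. -/
theorem red_prod {b : Bool} {α : Type*} (T : Finset α) {f : α → F}
    (hf : ∀ i ∈ T, f i ∈ gInt π (ι b)) :
    X.red b (∏ i ∈ T, f i) = ∏ i ∈ T, X.red b (f i) := by
  classical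
  induction T using Finset.induction_on with
  | empty => simp
  | insert a T ha ih =>
    simp only [Finset.mem_insert, forall_eq_or_imp] at hf
    rw [Finset.prod_insert ha, Finset.prod_insert ha, X.red_mul hf.1 (prod_mem hf.2), ih hf.2]

/-- A section of `D + m A0` times one of `m A0`. -/
theorem mul_sect {D : Divisor L F} {a f : F} {m : ℕ} (ha : a ∈ X.sect D m)
    (hf : f ∈ riemannRochSpace (m • X.A0)) : a * f ∈ X.sect D (2 * m) := by
  rw [sect, mem_riemannRochSpace] at ha ⊢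
  intro v
  refine ((ha v).mul (mem_riemannRochSpace.mp hf v)).mono (le_of_eq ?_)
  simp only [Finsupp.add_apply, Finsupp.smul_apply, nsmul_eq_mul, Nat.cast_mul, Nat.cast_ofNat]
  ring

/-- A pair `a, Y` giving `r` on the component `b`. -/
structure Fac (R : RatData π ι) (p m : ℕ) (r : F) (b : Bool) (a Y : F) : Prop where
  /-- `r = a ^ p Y`. -/
  eq : r = a ^ p * Y
  /-- `a` is integral at `b`. -/
  int : a ∈ gInt π (ι b)
  /-- `Y` is primitive at `b`. -/
  prim : X.Prim b Y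

variable {X} {R : RatData π ι} {a₀ p m : ℕ} {r r' : F} {u u' : Bool → K}

/-- A scalar congruent to one does not change the reduction. -/
theorem red_unit_mul {b : Bool} {c : L} (hc : Small π (c - 1)) {z : F} (hz : z ∈ gInt π (ι b)) :
    c • z ∈ gInt π (ι b) ∧ X.red b (c • z) = X.red b z := by
  have hA : c ∈ A := by simpa using add_mem hc.1 (one_mem A)
  refine ⟨X.int_smul hA hz, ?_⟩
  have h1 : π ⟨c, hA⟩ = 1 := by
    have := hc.2
    rw [show (⟨c - 1, hc.1⟩ : A) = ⟨c, hA⟩ - 1 from rfl, map_sub, map_one, sub_eq_zero] at this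
    exact this
  rw [show c • z = ((⟨c, hA⟩ : A) : L) • z from rfl, X.red_smul _ hz, h1, one_smul]

/-- In residue characteristic `p`, `g` is congruent to `1` as soon as `g ^ p` is. -/
theorem small_root (hp : p.Prime) (hchar : (p : k) = 0) {g : L} (hg : Small π (g ^ p - 1)) :
    Small π (g - 1) := by
  have : Fact p.Prime := ⟨hp⟩
  have : CharP k p := (CharP.charP_iff_prime_eq_zero hp).mpr hchar
  have hgp : g ^ p ∈ A := by simpa using add_mem hg.1 (one_mem A)
  have hgA : g ∈ A := by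
    rcases A.mem_or_inv_mem g with h | h
    · exact h
    · rcases eq_or_ne g 0 with h0 | h0
      · rw [h0]; exact zero_mem A
      · rw [show g = g ^ p * g⁻¹ ^ (p - 1) by
          rw [inv_pow,
            show g ^ p = g * g ^ (p - 1) by rw [← pow_succ', Nat.sub_add_cancel hp.one_le],
            mul_assoc, mul_inv_cancel₀ (pow_ne_zero _ h0), mul_one]]
        exact mul_mem hgp (pow_mem h _)
  refine ⟨sub_mem hgA (one_mem A), ?_⟩
  have h2 := hg.2
  rw [show (⟨g ^ p - 1, hg.1⟩ : A) = ⟨g, hgA⟩ ^ p - 1 from rfl, map_sub, map_pow, map_one,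
    sub_eq_zero] at h2
  rw [show (⟨g - 1, sub_mem hgA (one_mem A)⟩ : A) = ⟨g, hgA⟩ - 1 from rfl, map_sub,
    map_one, sub_eq_zero]
  exact frobenius_inj k p (by simpa [frobenius_def] using h2)

/-- The reduction of a factorisation of a section. -/
private theorem red_pow_mul_of_fac {b : Bool} {a Y : F} (ha : X.Fac R p m r b a Y)
    (hs : X.Sec R p m r u) : X.red b a ^ p * X.red b Y = u b ^ p := by
  rw [← X.red_pow ha.int, ← X.red_mul (pow_mem ha.int p) ha.prim.1, ← ha.eq, hs.red]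

/-- The difference of two cross products reduces to the difference of the leading terms. -/
private theorem lead_sub_mem {b : Bool} {i : ℤ} {f f' : F} {γ γ' : L}
    (h : X.App R p m r u i f γ) (h' : X.App R p m r' u' i f' γ') :
    (R.ρ ^ i)⁻¹ • ((γ • r - f ^ p) * f' ^ p - (γ' • r' - f' ^ p) * f ^ p) ∈ gInt π (ι b) ∧
      X.red b ((R.ρ ^ i)⁻¹ • ((γ • r - f ^ p) * f' ^ p - (γ' • r' - f' ^ p) * f ^ p)) =
        lead R X p i r f γ b * u' b ^ p - lead R X p i r' f' γ' b * u b ^ p := by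
  have hfi : f ^ p ∈ gInt π (ι b) := pow_mem (mem_gInt_of_int (h.int b)) p
  have hf'i : f' ^ p ∈ gInt π (ι b) := pow_mem (mem_gInt_of_int (h'.int b)) p
  have i1 := mem_gInt_of_int (π := π) (X.dvd_iff.mp h.dvd b)
  have i2 := mem_gInt_of_int (π := π) (X.dvd_iff.mp h'.dvd b)
  rw [smul_sub, ← smul_mul_assoc, ← smul_mul_assoc]
  refine ⟨sub_mem (mul_mem i1 hf'i) (mul_mem i2 hfi), ?_⟩
  rw [X.red_sub (mul_mem i1 hf'i) (mul_mem i2 hfi), X.red_mul i1 hf'i, X.red_mul i2 hfi,
    X.red_pow (mem_gInt_of_int (h'.int b)), X.red_pow (mem_gInt_of_int (h.int b)), h.red, h'.red]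
  rfl

/-- The scalar of an integral product is integral when the factors are rescaled to primitive
functions. -/
private theorem scale_mem_of_int {b : Bool} {α : Type*} (Z : Finset α) {G : α → F} {s : α → L}
    (hs : ∀ z ∈ Z, s z ≠ 0 ∧ X.Prim b ((s z)⁻¹ • G z)) {Y : F} (hY : X.Prim b Y) {t : L}
    (hint : t • ((∏ z ∈ Z, G z) * Y) ∈ gInt π (ι b)) : t * ∏ z ∈ Z, s z ∈ A := by
  have hG : X.Prim b ((∏ z ∈ Z, (s z)⁻¹ • G z) * Y) := by
    refine Prim.mul ⟨prod_mem fun z hz => (hs z hz).2.1, ?_⟩ hY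
    rw [X.red_prod Z fun z hz => (hs z hz).2.1]
    exact Finset.prod_ne_zero_iff.mpr fun z hz => (hs z hz).2.2
  refine hG.mem_of_smul ?_
  convert hint using 1
  simp only [Algebra.smul_def, map_mul, map_prod]
  rw [mul_assoc, ← mul_assoc (∏ z ∈ Z, algebraMap L F (s z)), ← Finset.prod_mul_distrib]
  congr 2
  refine Finset.prod_congr rfl fun z hz => ?_
  rw [← mul_assoc, ← map_mul, mul_inv_cancel₀ (hs z hz).1, map_one, one_mul]

/-- One of `p` scalars with product divisible by `ρ ^ i` is divisible beyond `1 - ζ`. -/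
private theorem exists_small_of_prod (X : Degen π ι K) {R : RatData π ι} {ζ : L}
    (hlam : R.Val (1 - ζ) a₀) {i : ℤ} (hi : (p : ℤ) * a₀ < i) {α : Type*} (Z : Finset α)
    (hcard : Z.card = p) {s : α → L} (hs : ∀ z ∈ Z, s z ≠ 0)
    (hsA : (R.ρ ^ i)⁻¹ * ∏ z ∈ Z, s z ∈ A) : ∃ z ∈ Z, Small π (s z / (1 - ζ)) := by
  by_contra! hall
  have hinv : ∀ z ∈ Z, (1 - ζ) / s z ∈ A := fun z hz => by
    by_contra hn'
    rcases A.mem_or_inv_mem (s z / (1 - ζ)) with h1 | h1
    · exact hall z hz ⟨h1, X.eq_zero_of_inv_notMem (by simpa [inv_div] using hn')⟩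
    · exact hn' (by simpa [inv_div] using h1)
  have h1 : (1 - ζ) ^ p / ∏ z ∈ Z, s z ∈ A := by
    rw [← hcard, ← Finset.prod_const, ← Finset.prod_div_distrib]
    exact prod_mem hinv
  have h2 : (1 - ζ) ^ p / R.ρ ^ i ∈ A := by
    have hρ0 : R.ρ ^ i ≠ 0 := zpow_ne_zero i R.ρ_ne
    have hS0 : (∏ z ∈ Z, s z) ≠ 0 := Finset.prod_ne_zero_iff.mpr hs
    rw [show (1 - ζ) ^ p / R.ρ ^ i =
      (1 - ζ) ^ p / (∏ z ∈ Z, s z) * ((R.ρ ^ i)⁻¹ * ∏ z ∈ Z, s z) by field_simp]
    exact mul_mem h1 hsA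
  have h3 := (((hlam.zpow p).mul (R.val_rho i).inv).inv).small (by linarith)
  rw [zpow_natCast, ← div_eq_mul_inv, inv_div] at h3
  have h4 : π ⟨_, h3.1⟩ * π ⟨_, h2⟩ = 1 := by
    rw [← map_mul, show (⟨_, h3.1⟩ : A) * ⟨_, h2⟩ = 1 from Subtype.ext (by
      change R.ρ ^ i / (1 - ζ) ^ p * ((1 - ζ) ^ p / R.ρ ^ i) = 1
      have := pow_ne_zero p hlam.1
      have := zpow_ne_zero i R.ρ_ne
      field_simp), map_one]
  rw [h3.2, zero_mul] at h4
  exact zero_ne_one h4

/-- Some factor of a difference of `p`-th powers is divisible beyond `1 - ζ`. -/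
private theorem exists_deep_factor (ht : Thresh R p a₀) {ζ : L} (hζ : IsPrimitiveRoot ζ p)
    (hlam : R.Val (1 - ζ) a₀) {i : ℤ} (hi : (p : ℤ) * a₀ < i) {b : Bool} {P Q Y : F}
    (h0 : P ^ p - Q ^ p ≠ 0) (hY : X.Prim b Y)
    (hint : (R.ρ ^ i)⁻¹ • ((P ^ p - Q ^ p) * Y) ∈ gInt π (ι b)) :
    ∃ c σ : L, c ^ p = 1 ∧ σ ≠ 0 ∧ X.Prim b (σ⁻¹ • (P - algebraMap L F c * Q)) ∧
      Small π (σ / (1 - ζ)) := by
  have hp := ht.prime
  have hζF := hζ.map_of_injective (algebraMap L F).injective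
  rw [hζF.pow_sub_pow_eq_prod_sub_mul P Q hp.pos] at h0 hint
  set Z := Polynomial.nthRootsFinset p (1 : F)
  have hfac : ∀ z ∈ Z, ∃ s : L, s ≠ 0 ∧ X.Prim b (s⁻¹ • (P - z * Q)) := fun z hz => by
    have hne : P - z * Q ≠ 0 := fun e => h0 (Finset.prod_eq_zero hz e)
    obtain ⟨c, hc, hpc⟩ := X.exists_smul_prim b hne
    exact ⟨c⁻¹, inv_ne_zero hc, by rwa [inv_inv]⟩
  choose! s hs using hfac
  obtain ⟨z, hz, hsm⟩ := exists_small_of_prod X hlam hi Z hζF.card_nthRootsFinset
    (fun z hz => (hs z hz).1) (scale_mem_of_int Z hs hY hint)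
  obtain ⟨hs0, hsp⟩ := hs z hz
  rw [Polynomial.mem_nthRootsFinset hp.pos] at hz
  have : NeZero p := ⟨hp.ne_zero⟩
  obtain ⟨j, -, rfl⟩ := hζF.eq_pow_of_pow_eq_one hz
  refine ⟨ζ ^ j, _, ?_, hs0, by rwa [map_pow], hsm⟩
  rw [← pow_mul, mul_comm, pow_mul, hζ.pow_eq_one, one_pow]

/-- A scalar divisible beyond `1 - ζ` has `(p - 1)`-st power divisible beyond `p`. -/
private theorem small_pow_div_prime (ht : Thresh R p a₀) {ζ σ : L} (hlam : R.Val (1 - ζ) a₀)
    (hsm : Small π (σ / (1 - ζ))) : Small π (σ ^ (p - 1) / (p : L)) := by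
  have hp := ht.prime
  have hV := ((hlam.zpow ((p - 1 : ℕ) : ℤ)).mul ht.val_p.inv).mem (by
    rw [Nat.cast_sub hp.one_le, Nat.cast_one]; linarith)
  rw [zpow_natCast] at hV
  obtain ⟨j, hj⟩ : ∃ j, p - 1 = j + 1 := ⟨p - 2, by have := hp.two_le; omega⟩
  have := hsm.mul (mul_mem (pow_mem hsm.1 j) hV)
  convert this using 1
  rw [hj, ← mul_assoc, ← pow_succ', div_pow, ← div_eq_mul_inv]
  have := pow_ne_zero (j + 1) hlam.1
  field_simp

/-- The expansion of a difference of `p`-th powers at a small distance. -/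
private theorem exists_pow_sub_expansion (ht : Thresh R p a₀) {b : Bool} {σ : L} {Q G : F}
    (hQ : Q ∈ gInt π (ι b)) (hG : G ∈ gInt π (ι b)) (hσ : Small π σ)
    (hε : Small π (σ ^ (p - 1) / (p : L))) :
    ∃ W ∈ gInt π (ι b), (Q + σ • G) ^ p - Q ^ p = ((p : L) * σ) • W ∧
      X.red b W = X.red b Q ^ (p - 1) * X.red b G := by
  have hp := ht.prime
  obtain ⟨q, hq⟩ := exists_add_pow_prime_sq hp (⟨Q, hQ⟩ : gInt π (ι b)) ⟨σ • G, X.int_smul hσ.1 hG⟩
  have hq' := congrArg Subtype.val hq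
  push_cast at hq'
  set ε := σ ^ (p - 1) / (p : L) with hεdef
  have w1 := pow_mem hG p
  have w2 := mul_mem (pow_mem hQ (p - 1)) hG
  have w3 := mul_mem (pow_mem hG 2) q.2
  have w23 := add_mem w2 (X.int_smul hσ.1 w3)
  refine ⟨ε • G ^ p + (Q ^ (p - 1) * G + σ • (G ^ 2 * (q : F))),
    add_mem (X.int_smul hε.1 w1) w23, ?_, ?_⟩
  · have hsp1 : ((p : L) * σ) * ε = σ ^ p := by
      rw [hεdef, ← mul_div_assoc, mul_assoc, ← pow_succ', Nat.sub_add_cancel hp.one_le,
        mul_div_cancel_left₀ _ ht.cast_ne]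
    rw [hq']
    simp only [smul_add, smul_smul, hsp1, smul_pow]
    simp only [Algebra.smul_def, map_mul, map_pow, map_natCast]
    ring
  · rw [X.red_add (X.int_smul hε.1 w1) w23, X.red_add w2 (X.int_smul hσ.1 w3),
      show ε • G ^ p = ((⟨ε, hε.1⟩ : A) : L) • G ^ p from rfl, X.red_smul _ w1, hε.2, zero_smul,
      show σ • (G ^ 2 * (q : F)) = ((⟨σ, hσ.1⟩ : A) : L) • (G ^ 2 * (q : F)) from rfl,
      X.red_smul _ w3, hσ.2, zero_smul, X.red_mul (pow_mem hQ _) hG, X.red_pow hQ,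
      zero_add, add_zero]

/-- Raising the reduced factorisation to the power `p`. -/
private theorem smul_factor_pow (τ : k) {Q G Y U : K} (hp : 1 ≤ p) (hQY : Q ^ p * Y = U) :
    (τ • (Q ^ (p - 1) * G * Y)) ^ p = τ ^ p • (U ^ (p - 1) * (G ^ p * Y)) := by
  rw [smul_pow, ← hQY]
  congr 1
  have hYp : Y ^ p = Y ^ (p - 1) * Y := by rw [← pow_succ, Nat.sub_add_cancel hp]
  simp only [mul_pow, ← pow_mul, hYp, mul_comm (p - 1) p]
  ring

/-- The order of a power of a product of two units. -/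
private theorem ordGE_mul_pow_pow {v : Place k K} {x y : K} (hx : x ≠ 0) (hy : y ≠ 0)
    (hp : 1 ≤ p) : OrdGE v (((x * y) ^ p) ^ (p - 1))
      ((p : ℤ) * (p - 1) * (v.ord x + v.ord y)) := by
  have hne := pow_ne_zero (p - 1) (pow_ne_zero p (mul_ne_zero hx hy))
  refine (ordGE_iff_of_ne hne).mpr (le_of_eq ?_)
  rw [FF.ord_pow, FF.ord_pow, v.ord_mul hx hy, Nat.cast_sub hp, Nat.cast_one]
  ring

/-- Two approximate roots of `a ^ p Y` and `a' ^ p Y` past the threshold: away from the glued points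
the `p`-th power of the cross difference of leading terms has bounded poles. -/
theorem compare_leads (ht : Thresh R p a₀) {ζ : L} (hζ : IsPrimitiveRoot ζ p)
    (hlam : R.Val (1 - ζ) a₀) {i : ℤ}
    (hi : (p : ℤ) * a₀ < i) (hs' : X.Sec R p m r' u') {f f' : F} {γ γ' : L}
    (h : X.App R p m r u i f γ) (h' : X.App R p m r' u' i f' γ') {D : Divisor L F}
    {b : Bool} {a a' Y : F}
    (ha : X.Fac R p m r b a Y) (ha' : X.Fac R p m r' b a' Y)
    (hu : u b ≠ 0) (hu' : u' b ≠ 0)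
    (haD : a ∈ X.sect D m) (ha'D : a' ∈ X.sect D m) (hY : ∀ z ∈ X.sect D (2 * m),
      z ^ p * Y ∈ riemannRochSpace ((p * (2 * m)) • X.A0))
    {v : Place k K} (hv : v ∉ X.nodes b) :
    OrdGE v ((lead R X p i r f γ b * u' b ^ p - lead R X p i r' f' γ' b * u b ^ p) ^ p)
      ((p : ℤ) * (p - 1) * (v.ord (u b) + v.ord (u' b)) - (p : ℤ) * (2 * m) * X.B v) := by
  have hp := ht.prime
  obtain ⟨g, hg⟩ := IsAlgClosed.exists_pow_nat_eq γ hp.pos
  obtain ⟨g', hg'⟩ := IsAlgClosed.exists_pow_nat_eq γ' hp.pos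
  have hfi : f ∈ gInt π (ι b) := mem_gInt_of_int (h.int b)
  obtain ⟨hQi, hQr⟩ := red_unit_mul (X := X) (small_root hp ht.char (hg' ▸ h'.γ_one))
    (mul_mem ha'.int hfi)
  -- the difference of the leads is the reduction of `(P ^ p - Q ^ p) Y`
  set P := g • (a * f')
  set Q := g' • (a' * f)
  have hQY : X.red b Q ^ p * X.red b Y = (u b * u' b) ^ p := by
    rw [hQr, X.red_mul ha'.int hfi, h.red, mul_pow, mul_right_comm, red_pow_mul_of_fac ha' hs',
      mul_pow, mul_comm]
  have hQ0 : X.red b Q ≠ 0 := fun e => by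
    rw [e, zero_pow hp.ne_zero, zero_mul] at hQY
    exact pow_ne_zero p (mul_ne_zero hu hu') hQY.symm
  have hEpq : (γ • r - f ^ p) * f' ^ p - (γ' • r' - f' ^ p) * f ^ p = (P ^ p - Q ^ p) * Y := by
    rw [ha.eq, ha'.eq]
    simp only [P, Q, Algebra.smul_def, mul_pow]
    rw [← map_pow, ← map_pow, hg, hg']
    ring
  obtain ⟨hEi, hEr⟩ := lead_sub_mem (b := b) h h'
  rw [← hEr]
  rw [hEpq] at hEi ⊢
  by_cases h0 : P ^ p - Q ^ p = 0
  · rw [h0, zero_mul, smul_zero, X.red_zero, zero_pow hp.ne_zero]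
    exact ordGE_zero _ _
  -- a factor `P - c Q` of `P ^ p - Q ^ p` is deeper than `1 - ζ`
  obtain ⟨c, σ, hc, hσ0, hGp, hsm⟩ := exists_deep_factor ht hζ hlam hi h0 ha.prim hEi
  set G := σ⁻¹ • (P - algebraMap L F c * Q)
  have hcA : Small π (c - 1) := small_root hp ht.char (by rw [hc, sub_self]; exact small_zero)
  obtain ⟨hQ'i, hQ'r⟩ := red_unit_mul (X := X) hcA hQi
  have hσA : Small π σ := by
    have := hsm.mul (hlam.mem (by positivity))
    rwa [div_mul_cancel₀ _ hlam.1] at this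
  obtain ⟨W, hWi, hpq, hWr⟩ := exists_pow_sub_expansion (X := X) ht hQ'i hGp.1 hσA
    (small_pow_div_prime ht hlam hsm)
  have hP : c • Q + σ • G = P := by
    simp only [G, smul_smul, mul_inv_cancel₀ hσ0, one_smul, Algebra.smul_def c]; ring
  rw [hP, smul_pow c Q, hc, one_smul] at hpq
  rw [hQ'r] at hWr
  have hWY : X.Prim b (W * Y) :=
    Prim.mul ⟨hWi, by rw [hWr]; exact mul_ne_zero (pow_ne_zero _ hQ0) hGp.2⟩ ha.prim
  rw [hpq, smul_mul_assoc, smul_smul] at hEi ⊢
  rw [show ((R.ρ ^ i)⁻¹ * ((p : L) * σ)) • (W * Y) =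
      ((⟨_, hWY.mem_of_smul hEi⟩ : A) : L) • (W * Y) from rfl,
    X.red_smul _ hWY.1, X.red_mul hWi ha.prim.1, hWr, smul_factor_pow _ hp.one_le hQY,
    ← X.red_pow hGp.1, ← X.red_mul (pow_mem hGp.1 p) ha.prim.1, Algebra.smul_def]
  -- its rescaling `G` is a section, which bounds the poles
  have hGD : G ∈ X.sect D (2 * m) := by
    refine Submodule.smul_mem _ _ (Submodule.sub_mem _ ?_ ?_)
    · exact Submodule.smul_mem _ _ (X.mul_sect haD h'.mem)
    · rw [← Algebra.smul_def]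
      exact Submodule.smul_mem _ _ (Submodule.smul_mem _ _ (X.mul_sect ha'D h.mem))
  -- bound it off the nodes
  have o1 := X.ordGE_off_bool (hY G hGD) (mul_mem (pow_mem hGp.1 p) ha.prim.1) hv
  refine ((ordGE_algebraMap v _).mul
    ((ordGE_mul_pow_pow (v := v) hu hu' hp.one_le).mul o1)).mono (le_of_eq ?_)
  push_cast; ring

end Degen

end Fermat.BAD

end
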