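import Fermat.Agent.BAD.Wit.Rat

/-!
# Pairs of sections when both reductions are `p`-th powers

If both reductions of the rescaled `y` are `n`-th powers `h b ^ n`, then every glued pair comes
from a rational section, divided by `h`.
-/

set_option autoImplicit false

attribute [local instance 10000] SubalgebraClass.toAlgebra HahnSeries.powerSeriesAlgebra

noncomputable section

open AlgebraicCurve

namespace Fermat.BAD

open Fermat.FF Fermat.RED.Model

variable {L : Type*} [Field L] {A : ValuationSubring L}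
variable {k : Type*} [Field k] [IsAlgClosed L] [IsAlgClosed k]
variable {F : Type*} [Field F] [Algebra L F]
variable {π : A →+* k} {ι : Bool → F →+* LaurentSeries L}
  {K : IntermediateField k (LaurentSeries k)}
variable [FF.IsFunctionField L F] [FF.IsFunctionField k K]

namespace Degen

variable (X : Degen π ι K) {R : RatData π ι} {n l : ℕ} {ϖ : L} {D : Divisor L F} {y : F} {c1 c0 : L}

/-- If `H = h ^ n` and `z h` has poles at most `m B`, vanishing at the glued points when `c = 1`,
then `z` lies in the bound `bnd n m H c`. -/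
theorem mem_bnd_of_pow (hn : n ≠ 0) {m : ℕ} {H h z : K} (hH : H = h ^ n) (hh : h ≠ 0) {c : ℤ}
    (hc : c = 0 ∨ c = 1) (hz : z * h ∈ riemannRochSpace (m • X.B))
    (h0 : c = 1 → ∀ s ∈ X.S, OrdGE s (z * h) 1) :
    z ∈ riemannRochSpace (X.bnd n m H c) := by
  classical
  rw [mem_riemannRochSpace]
  intro v
  rcases eq_or_ne z 0 with hz0 | hz0
  · rw [hz0]; exact ordGE_zero _ _
  refine (ordGE_iff_of_ne hz0).mpr ?_
  have h1 := (mem_riemannRochSpace.mp hz v).le_ord (mul_ne_zero hz0 hh)
  rw [v.ord_mul hz0 hh] at h1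
  simp only [bnd, Finsupp.add_apply, Finsupp.smul_apply, Finsupp.mapRange_apply, X.shifted_apply,
    nsmul_eq_mul] at h1 ⊢
  rw [hH, FF.ord_pow]
  have hn' : (0 : ℤ) < n := by exact_mod_cast Nat.pos_of_ne_zero hn
  split
  · rename_i hvS
    rcases hc with rfl | rfl
    · rw [sub_zero, Int.mul_ediv_cancel_left _ hn'.ne']; linarith
    · have h2 := (h0 rfl v hvS).le_ord (mul_ne_zero hz0 hh)
      rw [v.ord_mul hz0 hh] at h2
      have h3 : v.ord h - 1 ≤ ((n : ℤ) * v.ord h - 1) / (n : ℤ) :=
        (Int.le_ediv_iff_mul_le hn').mpr (by nlinarith)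
      rw [X.S_B v hvS]
      simp only [mul_zero, zero_add]
      linarith
  · rw [sub_zero, Int.mul_ediv_cancel_left _ hn'.ne']; linarith

variable {X}

/-- Every glued pair of ratio `γ` is, after division by `h`, the pair of reductions of a rational
section. -/
theorem Pres.exists_pair (h : X.Pres R n l D y c1 c0) (hn : n ≠ 0) (hϖ : ϖ ≠ 0) (hN : X.Node ϖ)
    {e : L} (he : e ∈ R.M) (he0 : e ≠ 0) (hμ : c1 / (e ^ n * c0) ∈ A)
    (hν : e ^ n * c0 / c1 ∈ A) {hh : Bool → K} (h1 : X.red true (c1 • y) = hh true ^ n)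
    (h0 : X.red false (c0 • y) = hh false ^ n) {γ : k} (hγ : γ ^ n = π ⟨_, hμ⟩)
    (hroot : ∀ a b : k, a ^ n = b ^ n → a = b)
    {m : ℕ} (hm0 : X.N0 ≤ m)
    (hm : (2 * genusFF k K : ℤ) + 2 * X.S.card + X.exc n (X.red true (c1 • y)) 0 +
      X.flip.exc n (X.red false (c0 • y)) 1 ≤ m)
    {P : Bool → K} (hP : P ∈ X.glueSp (fun _ => γ) m) :
    ∃ w ∈ X.sect D m, w ∈ R.R ∧ (∀ b, ι b (sc e b • w) ∈ intSeries A) ∧
      ∀ b, X.red b (sc e b • w) * hh b = P b := by
  classical
  have hh1 : hh true ≠ 0 := fun e0 => h.prim_true.2 (by rw [h1, e0, zero_pow hn])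
  have hh0 : hh false ≠ 0 := fun e0 => h.prim_false.2 (by rw [h0, e0, zero_pow hn])
  have hμ' : ϖ ^ (-(0 : ℤ)) * c1 / (e ^ n * c0) ∈ A := by simpa using hμ
  have hν' : e ^ n * c0 * ϖ ^ (0 : ℤ) / c1 ∈ A := by simpa using hν
  have hμ0 : π ⟨_, hμ⟩ ≠ 0 := fun h2 => by
    have := congrArg π (show (⟨_, hμ⟩ : A) * ⟨_, hν⟩ = 1 from Subtype.ext (by
      change c1 / (e ^ n * c0) * (e ^ n * c0 / c1) = 1
      have := h.c1_ne; have := h.c0_ne; field_simp))
    rw [map_mul, h2, zero_mul, map_one] at this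
    exact zero_ne_one this
  obtain ⟨hP1, hP2⟩ := X.mem_glueSp.mp hP
  obtain ⟨hlift, hlift0⟩ := h.exists_fill hn hϖ hN (T := 0) he he0 hμ' hν' hm0 (by
    norm_num
    linarith [Int.natCast_nonneg X.S.card])
  rw [neg_zero, zero_add] at hlift0
  -- lift the component at `true`
  obtain ⟨w, hw, hwR, hwi, hwt⟩ := hlift (P true / hh true) (X.mem_bnd_of_pow hn h1 hh1 (Or.inl rfl)
    (by rw [div_mul_cancel₀ _ hh1]; exact hP1 true) (fun h2 => absurd h2 zero_ne_one))
  have hwg := fun b => mem_gInt_of_int (π := π) (hwi b)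
  have hw1 : w ∈ gInt π (ι true) := sc_true (F := F) e w ▸ hwg true
  have hw0 : e • w ∈ gInt π (ι false) := hwg false
  -- the glue of `w ^ n * y`
  set f := w ^ n * (c1 • y) with hf
  have hfm : f ∈ riemannRochSpace ((n * m) • X.A0) := h.pow_mul_mem hw c1
  have hfe : f = ((⟨_, hμ⟩ : A) : L) • ((e • w) ^ n * (c0 • y)) := by
    have := h.c0_ne
    rw [hf, smul_pow, smul_mul_smul_comm, smul_smul, mul_smul_comm]
    congr 1
    change c1 = c1 / (e ^ n * c0) * _
    field_simp
  have hfO : f ∈ X.O := X.mem_O.mpr fun b => by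
    cases b
    · rw [hfe]; exact X.int_smul hμ (mul_mem (pow_mem hw0 n) h.prim_false.1)
    · exact mul_mem (pow_mem hw1 n) h.prim_true.1
  have hf1 : X.red true f = (X.red true w * hh true) ^ n := by
    rw [X.red_mul (pow_mem hw1 n) h.prim_true.1, X.red_pow hw1, h1, mul_pow]
  have hf0 : X.red false f = π ⟨_, hμ⟩ • (X.red false (e • w) * hh false) ^ n := by
    rw [hfe, X.red_smul _ (mul_mem (pow_mem hw0 n) h.prim_false.1),
      X.red_mul (pow_mem hw0 n) h.prim_false.1, X.red_pow hw0, h0, mul_pow]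
  set d := P false / hh false - X.red false (e • w) with hd
  have hdh : d * hh false = P false - X.red false (e • w) * hh false := by
    rw [hd, sub_mul, div_mul_cancel₀ _ hh0]
  have hpole : X.red false (e • w) * hh false ∈ riemannRochSpace (m • X.B) := by
    refine X.mem_of_pow_mem hn ?_
    have := Submodule.smul_mem _ (π ⟨_, hμ⟩)⁻¹ (X.red_mem_pole (b := false) hfO hfm)
    rwa [hf0, smul_smul, inv_mul_cancel₀ hμ0, one_smul] at this
  -- the defect at `false` is within the second bound: it vanishes at the glued points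
  have hdV : d ∈ riemannRochSpace (X.flip.bnd n m (X.red false (c0 • y)) 1) := by
    refine X.flip.mem_bnd_of_pow hn h0 hh0 (Or.inr rfl) ?_ fun _ t ht => ?_
    · rw [hdh, X.flip_B]; exact sub_mem (hP1 false) hpole
    · rw [flip_S, Finset.mem_image] at ht
      obtain ⟨s, hs, rfl⟩ := ht
      have hB := X.Qf_B s hs
      have hg := X.glue_red hfO hfm hs
      have o1 : OrdGE (X.Qf s) (X.red false (e • w) * hh false) 0 := X.ordGE_S hpole hB
      have o2 : OrdGE (X.Qf s) (P false) 0 := X.ordGE_S (hP1 false) hB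
      have o3 : OrdGE s (X.red true w * hh true) 0 := by
        rw [hwt, div_mul_cancel₀ _ hh1]
        exact X.ordGE_S (hP1 true) (X.S_B s hs)
      rw [hf1, hf0, Algebra.smul_def, evalAt_mul (ordGE_algebraMap _ _) (by
        simpa using o1.pow n), evalAt_algebraMap, FF.evalAt_pow o1, FF.evalAt_pow o3] at hg
      have he1 : evalAt s (X.red true w * hh true) = γ * evalAt (X.Qf s) (P false) := by
        rw [hwt, div_mul_cancel₀ _ hh1]
        exact hP2 s hs
      rw [he1, mul_pow, hγ] at hg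
      have he2 := hroot _ _ (mul_left_cancel₀ hμ0 hg)
      have hev : evalAt (X.Qf s) (d * hh false) = 0 := by
        have h3 := evalAt_add (o2.sub o1) o1
        rw [sub_add_cancel] at h3
        rw [hdh, ← add_left_inj (evalAt (X.Qf s) (X.red false (e • w) * hh false)), ← h3,
          zero_add, he2]
      exact (FF.evalAt_eq_zero_iff (hdh ▸ (o2.sub o1))).mp hev
  -- so it lifts without changing the component at `true`
  obtain ⟨w', hw', hw'R, hw'i, hw't, hw'f⟩ := hlift0 d hdV
  refine ⟨w + w', add_mem hw hw', add_mem hwR hw'R, fun b => ?_, fun b => ?_⟩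
  · rw [smul_add, map_add]
    exact add_mem (hwi b) (hw'i b)
  rw [smul_add, X.red_add (hwg b) (mem_gInt_of_int (hw'i b)), add_mul]
  cases b
  · show X.red false (e • w) * _ + X.red false (e • w') * _ = _
    rw [hw'f, hdh]
    ring
  · rw [sc_true, sc_true, hw't, hwt, zero_mul, add_zero, div_mul_cancel₀ _ hh1]

end Degen

end Fermat.BAD

end
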