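import Fermat.Agent.BAD.Wit.Deep

/-!
# Improvement past the threshold

Two sections of a class with no common zero improve each other's approximate roots indefinitely:
the leading term divided by `u ^ (p - 1)` is a glued pair (`Pair.quot_mem`, from `compare_leads`),
which lifts and corrects the root (`Pair.step`).
-/

set_option autoImplicit false

attribute [local instance 10000] SubalgebraClass.toAlgebra HahnSeries.powerSeriesAlgebra

noncomputable section

open AlgebraicCurve

namespace Fermat.BAD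

open Fermat.FF Fermat.RED.Model

variable {L : Type*} [Field L] {A : ValuationSubring L}
variable {k : Type*} [Field k] [IsAlgClosed L] [IsAlgClosed k]
variable {F : Type*} [Field F] [Algebra L F]
variable {π : A →+* k} {ι : Bool → F →+* LaurentSeries L}
  {K : IntermediateField k (LaurentSeries k)}
variable [FF.IsFunctionField L F] [FF.IsFunctionField k K]

namespace Degen

variable (X : Degen π ι K)

/-- Two sections of one class without common zero. -/
structure Pair (R : RatData π ι) (p m : ℕ) (r r' : F) (u u' : Bool → K)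
    (D : Divisor L F) : Prop where
  /-- The first is a section. -/
  sec : X.Sec R p m r u
  /-- `r'` is a section with reductions `u'`. -/
  sec' : X.Sec R p m r' u'
  /-- On each component both are `p`-th powers of sections times one `Y`. -/
  fac : ∀ b, ∃ a a' Y : F, X.Fac R p m r b a Y ∧ X.Fac R p m r' b a' Y ∧ a ∈ X.sect D m ∧
    a' ∈ X.sect D m ∧ ∀ z ∈ X.sect D (2 * m), z ^ p * Y ∈ riemannRochSpace ((p * (2 * m)) • X.A0)
  /-- The first reductions are nonzero. -/
  ne : ∀ b, u b ≠ 0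
  /-- The reductions `u'` of the second section are nonzero. -/
  ne' : ∀ b, u' b ≠ 0
  /-- At each place one of them has the largest allowed pole: no common zero. -/
  cover : ∀ b (v : Place k K), v.ord (u b) = -((m : ℤ) * X.B v) ∨ v.ord (u' b) = -((m : ℤ) * X.B v)

variable {X} {R : RatData π ι} {a₀ p m : ℕ} {r r' : F} {u u' : Bool → K} {D : Divisor L F}

/-- A coprime pair is symmetric. -/
theorem Pair.symm (h : X.Pair R p m r r' u u' D) : X.Pair R p m r' r u' u D :=
  ⟨h.sec', h.sec, fun b =>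
    let ⟨a, a', Y, h1, h2, h3, h4, h5⟩ := h.fac b
    ⟨a', a, Y, h2, h1, h4, h3, h5⟩, h.ne', h.ne, fun b v => (h.cover b v).symm⟩

/-- The reduction of a section has order zero at the glued points. -/
theorem Sec.ord_node (h : X.Sec R p m r u) (hu : ∀ b, u b ≠ 0) {b : Bool} {v : Place k K}
    (hv : v ∈ X.nodes b) : v.ord (u b) = -((m : ℤ) * X.B v) := by
  obtain ⟨hm, hg⟩ := X.mem_glueSp.mp h.glue
  have key : ∀ w : Place k K, X.B w = 0 → evalAt w (u b) ≠ 0 → w.ord (u b) = -((m : ℤ) * X.B w) :=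
    fun w hw hne => by
      have h0 : OrdGE w (u b) 0 := X.ordGE_S (hm b) hw
      rw [hw, mul_zero, neg_zero]
      refine le_antisymm (not_lt.mp fun hlt => hne ?_) (h0.le_ord (hu b))
      exact (evalAt_eq_zero_iff h0).mpr ((ordGE_iff_of_ne (hu b)).mpr hlt)
  cases b
  · obtain ⟨s, hs, rfl⟩ := X.mem_nodes_false.mp hv
    refine key _ (X.Qf_B s hs) fun e => h.ne s hs ?_
    rw [hg s hs, e, mul_zero]
  · exact key _ (X.S_B v hv) (h.ne v hv)

/-- Past the threshold the leading term of one section of a coprime pair divided by `u ^ (p - 1)`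
has bounded poles. -/
theorem Pair.quot_mem (ht : Thresh R p a₀) {ζ : L} (hζ : IsPrimitiveRoot ζ p)
    (hlam : R.Val (1 - ζ) a₀) {i : ℤ} (hi : (p : ℤ) * a₀ < i) (h : X.Pair R p m r r' u u' D)
    {f f' : F} {γ γ' : L}
    (ha : X.App R p m r u i f γ) (ha' : X.App R p m r' u' i f' γ') (b : Bool) :
    lead R X p i r f γ b / u b ^ (p - 1) ∈ riemannRochSpace (m • X.B) := by
  classical
  have hp := ht.prime
  set z := lead R X p i r f γ b
  set z' := lead R X p i r' f' γ' b
  rw [mem_riemannRochSpace]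
  intro v
  rcases eq_or_ne z 0 with hz | hz
  · rw [hz, zero_div]; exact ordGE_zero _ _
  have hub := h.ne b
  have hu'b := h.ne' b
  refine (ordGE_iff_of_ne (div_ne_zero hz (pow_ne_zero _ hub))).mpr ?_
  rw [div_eq_mul_inv, v.ord_mul hz (inv_ne_zero (pow_ne_zero _ hub)), v.ord_inv, FF.ord_pow,
    Nat.cast_sub hp.one_le, Nat.cast_one, ← sub_eq_add_neg,
    Finsupp.smul_apply, nsmul_eq_mul]
  have hb := ((X.mem_glueSp.mp (ha.lead_glue h.sec)).1 b)
  have hb' := ((X.mem_glueSp.mp (ha'.lead_glue h.sec')).1 b)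
  have o1 := (mem_riemannRochSpace.mp hb v).le_ord hz
  simp only [Finsupp.smul_apply, nsmul_eq_mul, Nat.cast_mul] at o1
  have hum := (mem_riemannRochSpace.mp ((X.mem_glueSp.mp h.sec.glue).1 b) v).le_ord hub
  simp only [Finsupp.smul_apply, nsmul_eq_mul] at hum
  -- Where `ord u = -m B` (in particular at the nodes) the pole bound of `z` suffices.
  have hfirst : v.ord (u b) = -((m : ℤ) * X.B v) →
      -((m : ℤ) * X.B v) ≤ v.ord z - ((p : ℤ) - 1) * v.ord (u b) := fun e => by rw [e]; linarith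
  rcases h.cover b v with e | e
  · exact hfirst e
  by_cases hv : v ∈ X.nodes b
  · exact hfirst (h.sec.ord_node h.ne hv)
  -- Elsewhere `ord u' = -m B`: `z u' ^ p - z' u ^ p` has order at least `m0`.
  obtain ⟨a, a', Y, fa, fa', haD, ha'D, hY⟩ := h.fac b
  have hc := compare_leads ht hζ hlam hi h.sec' ha ha' fa fa' hub hu'b haD ha'D hY hv
  set m0 : ℤ := ((p : ℤ) - 1) * (v.ord (u b) + v.ord (u' b)) - 2 * m * X.B v
  have hX : OrdGE v (z * u' b ^ p - z' * u b ^ p) m0 :=
    ordGE_of_pow hp.ne_zero (hc.mono (by simp only [m0]; linarith))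
  have hZ : OrdGE v (z' * u b ^ p) m0 := by
    have o2 : OrdGE v z' (-(((p * m : ℕ) : ℤ) * X.B v)) := by
      simpa using mem_riemannRochSpace.mp hb' v
    have o3 : OrdGE v (u b ^ p) ((p : ℤ) * v.ord (u b)) :=
      (ordGE_iff_of_ne (pow_ne_zero p hub)).mpr (by rw [FF.ord_pow])
    refine (o2.mul o3).mono ?_
    simp only [m0, e]
    push_cast
    linarith
  -- So has `z u' ^ p`, and dividing gives the bound for `z`.
  have hW := hX.add hZ
  rw [sub_add_cancel] at hW
  have := hW.le_ord (mul_ne_zero hz (pow_ne_zero p hu'b))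
  rw [v.ord_mul hz (pow_ne_zero p hu'b), FF.ord_pow] at this
  simp only [m0, e] at this
  linarith

/-- Past the threshold both approximate roots improve. -/
theorem Pair.step (ht : Thresh R p a₀) {ζ : L} (hζ : IsPrimitiveRoot ζ p) (hlam : R.Val (1 - ζ) a₀)
    (hl : X.LiftGlue R m) {i : ℤ} (hi : (p : ℤ) * a₀ < i) (h : X.Pair R p m r r' u u' D)
    {f f' : F} {γ γ' : L} (ha : X.App R p m r u i f γ) (ha' : X.App R p m r' u' i f' γ') :
    X.Approx R p m r u (i + 1) := by
  have hp := ht.prime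
  have hpz : (2 : ℤ) ≤ p := by exact_mod_cast hp.two_le
  obtain ⟨hu, hug⟩ := X.mem_glueSp.mp h.sec.glue
  set z := fun b => lead R X p i r f γ b with hz
  obtain ⟨hzm, hzg⟩ := X.mem_glueSp.mp (ha.lead_glue h.sec)
  have htm := h.quot_mem ht hζ hlam hi ha ha'
  have hmul : ∀ b, z b = z b / u b ^ (p - 1) * u b ^ (p - 1) := fun b =>
    (div_mul_cancel₀ _ (pow_ne_zero _ (h.ne b))).symm
  -- `z / u ^ (p - 1)` is a glued section; lift it to `t`
  have htg : (fun b => z b / u b ^ (p - 1)) ∈ X.glueSp (fun _ => 1) m :=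
      X.mem_glueSp.mpr ⟨htm, fun s hs => by
    have o1 := X.ordGE_S (htm true) (X.S_B s hs)
    have o0 := X.ordGE_S (htm false) (X.Qf_B s hs)
    have e1 := X.ordGE_S (hu true) (X.S_B s hs)
    have e0 := X.ordGE_S (hu false) (X.Qf_B s hs)
    have h1 := hzg s hs
    rw [one_mul, show lead R X p i r f γ true = z true from rfl,
      show lead R X p i r f γ false = z false from rfl, hmul true, hmul false,
      evalAt_mul o1 (by simpa using e1.pow (p - 1)), evalAt_mul o0 (by simpa using e0.pow (p - 1)),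
      FF.evalAt_pow e1, FF.evalAt_pow e0, hug s hs, one_mul] at h1
    rw [one_mul]
    refine mul_right_cancel₀ (pow_ne_zero _ fun e => h.sec.ne s hs ?_) h1
    rw [hug s hs, e, mul_zero]⟩
  obtain ⟨t, htA, htR, hti, htr⟩ := hl _ htg
  set ρi := R.ρ ^ i with hρi
  set δ := ρi / (p : L) with hδ
  have hδV : R.Val δ (i + -(((p : ℤ) - 1) * a₀)) := by
    rw [hδ, div_eq_mul_inv]; exact (R.val_rho i).mul ht.val_p.inv
  have hδs : Small π δ := hδV.small (by linarith)
  have hne : ρi ≠ 0 := zpow_ne_zero i R.ρ_ne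
  obtain ⟨Q, hQ, hexp, q, hq, hQe⟩ := X.expand hp (X.mem_intF.mpr ha.int) (X.mem_intF.mpr hti) hδs.1
  -- correct `f` by `(ρ ^ i / p) t`
  set e := ρi⁻¹ * δ ^ p with he
  have hes : Small π e := by
    have hV := (R.val_rho i).inv.mul (hδV.zpow (p : ℤ))
    rw [zpow_natCast] at hV
    refine hV.small ?_
    nlinarith
  have hd : γ • r - (f + δ • t) ^ p = (γ • r - f ^ p) - ρi • (e • t ^ p + Q) := by
    rw [hexp, hδ, mul_div_cancel₀ _ ht.cast_ne, ← hδ, smul_add, smul_smul, he, ← mul_assoc,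
      mul_inv_cancel₀ hne, one_mul]
    abel
  have hTi : ∀ b, ι b (e • t ^ p + Q) ∈ intSeries A :=
    X.mem_intF.mp (add_mem (X.intF_smul hes.1 (pow_mem (X.mem_intF.mpr hti) p)) hQ)
  refine ⟨f + δ • t, γ, App.next ?_ h.sec fun b => ?_⟩
  · refine ⟨add_mem ha.mem (Submodule.smul_mem _ _ htA),
      R.rc_add ha.rc (R.rc_smul (X := X) ?_ htR), ?_, fun b => ?_, ha.γ_mem, ha.γ_one, ?_⟩
    · rw [hδ]; exact div_mem (zpow_mem R.ρ_mem i) (natCast_mem R.M p)
    · exact X.mem_intF.mp (add_mem (X.mem_intF.mpr ha.int) (X.intF_smul hδs.1 (X.mem_intF.mpr hti)))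
    · rw [X.red_add (mem_gInt_of_int (ha.int b)) (X.int_smul hδs.1 (mem_gInt_of_int (hti b))),
        show δ • t = ((⟨δ, hδs.1⟩ : A) : L) • t from rfl, X.red_smul _ (mem_gInt_of_int (hti b)),
        ha.red, hδs.2, zero_smul, add_zero]
    · rw [hd]
      refine RatData.Dvd.sub ha.dvd ?_
      have := X.dvd_smul (c := ρi) (X.dvd_one_iff.mpr hTi)
      rwa [mul_one] at this
  · have hQi := mem_gInt_of_int (π := π) (X.mem_intF.mp hQ b)
    have hqi := mem_gInt_of_int (π := π) (X.mem_intF.mp hq b)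
    have hfi := mem_gInt_of_int (π := π) (ha.int b)
    have htp := pow_mem (mem_gInt_of_int (π := π) (hti b)) p
    have hQr : X.red b Q = u b ^ (p - 1) * (z b / u b ^ (p - 1)) := by
      rw [hQe, X.red_add (mul_mem (pow_mem hfi _) (mem_gInt_of_int (hti b))) (X.int_smul hδs.1 hqi),
        show δ • q = ((⟨δ, hδs.1⟩ : A) : L) • q from rfl, X.red_smul _ hqi, hδs.2,
        zero_smul, add_zero,
        X.red_mul (pow_mem hfi _) (mem_gInt_of_int (hti b)), X.red_pow hfi, ha.red, htr]
    rw [lead, hd, smul_sub, smul_smul, inv_mul_cancel₀ hne, one_smul,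
      X.red_sub (mem_gInt_of_int (X.dvd_iff.mp ha.dvd b)) (mem_gInt_of_int (hTi b)),
      X.red_add (X.int_smul hes.1 htp) hQi, show e • t ^ p = ((⟨e, hes.1⟩ : A) : L) •
        t ^ p from rfl,
      X.red_smul _ htp, hes.2, zero_smul, zero_add, hQr, mul_comm, ← hmul b]
    exact sub_self _

/-- Past the threshold every depth is reached. -/
theorem Pair.approx_all (ht : Thresh R p a₀) {ζ : L} (hζ : IsPrimitiveRoot ζ p)
    (hlam : R.Val (1 - ζ) a₀) (hl : X.LiftGlue R m) (h : X.Pair R p m r r' u u' D)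
    (h1 : X.Approx R p m r u ((p : ℤ) * a₀ + 1)) (h2 : X.Approx R p m r' u' ((p : ℤ) * a₀ + 1))
    (j : ℕ) : X.Approx R p m r u ((p : ℤ) * a₀ + 1 + j) ∧
      X.Approx R p m r' u' ((p : ℤ) * a₀ + 1 + j) := by
  induction j with
  | zero => simpa using And.intro h1 h2
  | succ j ih =>
    obtain ⟨⟨f, γ, ha⟩, f', γ', ha'⟩ := ih
    have hj : (p : ℤ) * a₀ < (p : ℤ) * a₀ + 1 + j := by linarith [Int.natCast_nonneg j]
    rw [Nat.cast_succ, ← add_assoc]
    exact ⟨h.step ht hζ hlam hl hj ha ha', h.symm.step ht hζ hlam hl hj ha' ha⟩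

end Degen

end Fermat.BAD

end
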