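import Fermat.Agent.BAD.Mono.Attain
import Fermat.Prelude.Def_ModularCurve_LaurentCoeff

/-!
# Depth of functions with coefficients in the discretely valued subfield

`RC f` says that both expansions of `f` have coefficients in `M`, `Dvd a f` that both are divisible
by `a`; with coefficients in `M` the depth goes up from `ρ ^ i` to `ρ ^ (i + 1)` as soon as both
reductions of the quotient vanish (`dvd_succ`).
-/

set_option autoImplicit false
set_option linter.unusedSectionVars false

attribute [local instance 10000] SubalgebraClass.toAlgebra HahnSeries.powerSeriesAlgebra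

noncomputable section

open AlgebraicCurve

namespace Fermat.BAD

open Fermat.RED.Model

variable {L : Type*} [Field L] {A : ValuationSubring L}
variable {k : Type*} [Field k] [IsAlgClosed L] [IsAlgClosed k]
variable {F : Type*} [Field F] [Algebra L F]
variable {π : A →+* k} {ι : Bool → F →+* LaurentSeries L}
  {K : IntermediateField k (LaurentSeries k)}
variable [FF.IsFunctionField L F] [FF.IsFunctionField k K]

namespace RatData

variable (R : RatData π ι)

/-- The series with coefficients in `M`, as a subfield of all series. -/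
def serM : Subfield (LaurentSeries L) :=
  (ModularCurve.coeffMap R.M.subtype).fieldRange

/-- `serM` consists of the series with coefficients in `M`. -/
theorem mem_serM {x : LaurentSeries L} : x ∈ R.serM ↔ ∀ n, x.coeff n ∈ R.M := by
  constructor
  · rintro ⟨g, rfl⟩ n
    rw [ModularCurve.coeffMap_coeff]
    exact (g.coeff n).2
  · intro h
    exact ⟨⟨fun n => ⟨x.coeff n, h n⟩, x.isPWO_support'.mono fun n hn => by
      simp only [Function.mem_support, ne_eq, Subtype.ext_iff] at hn ⊢
      exact hn⟩, HahnSeries.ext (funext fun n => by rw [ModularCurve.coeffMap_coeff]; rfl)⟩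

/-- Both expansions have coefficients in `M`. -/
def RC (f : F) : Prop := ∀ b, ι b f ∈ R.serM

/-- The coefficients of both expansions lie in `M`. -/
theorem RC.coeff {f : F} (h : R.RC f) (b : Bool) (n : ℤ) : (ι b f).coeff n ∈ R.M :=
  R.mem_serM.mp (h b) n

/-- Rational functions have coefficients in `M`. -/
theorem rc_of_mem {f : F} (h : f ∈ R.R) : R.RC f :=
  fun b => R.mem_serM.mpr fun n => R.coeff_mem f h b n

/-- `RC` is stable under products. -/
theorem rc_mul {f g : F} (hf : R.RC f) (hg : R.RC g) : R.RC (f * g) :=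
  fun b => by rw [map_mul]; exact mul_mem (hf b) (hg b)

/-- `RC` is stable under sums. -/
theorem rc_add {f g : F} (hf : R.RC f) (hg : R.RC g) : R.RC (f + g) :=
  fun b => by rw [map_add]; exact add_mem (hf b) (hg b)

/-- `RC` is stable under differences. -/
theorem rc_sub {f g : F} (hf : R.RC f) (hg : R.RC g) : R.RC (f - g) :=
  fun b => by rw [map_sub]; exact sub_mem (hf b) (hg b)

/-- `RC` is stable under powers. -/
theorem rc_pow {f : F} (hf : R.RC f) (n : ℕ) : R.RC (f ^ n) :=
  fun b => by rw [map_pow]; exact pow_mem (hf b) n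

/-- `RC` is stable under inverses. -/
theorem rc_inv {f : F} (hf : R.RC f) : R.RC f⁻¹ :=
  fun b => by rw [map_inv₀]; exact inv_mem (hf b)

/-- `RC` is stable under scalars in `M`. -/
theorem rc_smul {X : Degen π ι K} {c : L} (hc : c ∈ R.M) {f : F} (hf : R.RC f) :
    R.RC (c • f) := fun b =>
  R.mem_serM.mpr fun n => by rw [RatData.coeff_smul (X := X)]; exact mul_mem hc (hf.coeff R b n)

/-- Both expansions are divisible by `a`. -/
def Dvd (a : L) (f : F) : Prop := ∀ b n, (ι b f).coeff n / a ∈ A

/-- Divisibility passes to differences. -/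
theorem Dvd.sub {a : L} {f g : F} (hf : Dvd (A := A) (ι := ι) a f)
    (hg : Dvd (A := A) (ι := ι) a g) : Dvd (A := A) (ι := ι) a (f - g) :=
    fun b n => by
  rw [map_sub, HahnSeries.coeff_sub, sub_div]; exact sub_mem (hf b n) (hg b n)

end RatData

namespace Degen

variable (X : Degen π ι K) {R : RatData π ι}

include X in
/-- Divisibility by `a` as integrality of `f / a`. -/
theorem dvd_iff {a : L} {f : F} :
    RatData.Dvd (A := A) (ι := ι) a f ↔ ∀ b, ι b (a⁻¹ • f) ∈ intSeries A := by
  refine forall_congr' fun b => ?_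
  rw [mem_intSeries_iff]
  refine forall_congr' fun n => ?_
  rw [RatData.coeff_smul (X := X), inv_mul_eq_div]

include X in
/-- Divisibility by `1` is integrality. -/
theorem dvd_one_iff {f : F} : RatData.Dvd (A := A) (ι := ι) 1 f ↔ ∀ b, ι b f ∈ intSeries A := by
  rw [X.dvd_iff, inv_one]; simp

include X in
/-- If `a` divides `f` then `c a` divides `c • f`. -/
theorem dvd_smul {a c : L} {f : F} (hf : RatData.Dvd (A := A) (ι := ι) a f) :
    RatData.Dvd (A := A) (ι := ι) (c * a) (c • f) := by
  rcases eq_or_ne c 0 with rfl | hc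
  · intro b n; simp
  intro b n
  rw [RatData.coeff_smul (X := X), mul_div_mul_left _ _ hc]
  exact hf b n

/-- Two vanishing reductions give one more power of `ρ`. -/
theorem dvd_succ (R : RatData π ι) {f : F} (hf : R.RC f) {i : ℤ}
    (h : RatData.Dvd (A := A) (ι := ι) (R.ρ ^ i) f)
    (h0 : ∀ b, X.red b ((R.ρ ^ i)⁻¹ • f) = 0) :
    RatData.Dvd (A := A) (ι := ι) (R.ρ ^ (i + 1)) f := fun b n => by
  have hint := X.dvd_iff.mp h b
  have hred := X.coe_red_int hint n
  rw [h0 b] at hred
  have hs : Small π ((ι b f).coeff n / R.ρ ^ i) := ⟨h b n, by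
    rw [show (⟨(ι b f).coeff n / R.ρ ^ i, h b n⟩ : A) =
      ⟨(ι b ((R.ρ ^ i)⁻¹ • f)).coeff n, mem_intSeries_iff.mp hint n⟩ from
        Subtype.ext (by simp only; rw [RatData.coeff_smul (X := X), inv_mul_eq_div]), ← hred]
    rfl⟩
  have := R.div_rho_mem (div_mem (hf.coeff R b n) (zpow_mem R.ρ_mem i)) hs
  rwa [div_div, ← zpow_add_one₀ R.ρ_ne] at this

/-- The reduction of a divisible function is a pole-bounded glued pair. -/
theorem glue_of_dvd {a : L} {f : F} {m : ℕ} (h : RatData.Dvd (A := A) (ι := ι) a f)
    (hm : f ∈ riemannRochSpace (m • X.A0)) :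
    (fun b => X.red b (a⁻¹ • f)) ∈ X.glueSp (fun _ => 1) m := by
  have hint := X.dvd_iff.mp h
  have hO : a⁻¹ • f ∈ X.O := X.mem_O.mpr fun b => mem_gInt_of_int (hint b)
  have hm' := Submodule.smul_mem _ a⁻¹ hm
  exact X.mem_glueSp.mpr ⟨fun b => X.red_mem_pole hO hm', fun s hs => by
    rw [one_mul]; exact X.glue_red hO hm' hs⟩

end Degen

end Fermat.BAD

end
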