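import Fermat.Agent.BAD.Wit.Step
import Fermat.Agent.RED.Congruence.Frobenius

/-!
# Leading terms of differences of two `p`-th powers of series

For series with coefficients in `M` the leading term of `W ^ p - (1 + δ) * V ^ p` below the
threshold is a `p`-th power, up to a multiple of the leading term of `V ^ p`.
-/

set_option autoImplicit false
set_option linter.unusedSectionVars false

attribute [local instance 10000] SubalgebraClass.toAlgebra HahnSeries.powerSeriesAlgebra

noncomputable section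

namespace Fermat.BAD

open Fermat.RED.Model ModularCurve

variable {L : Type*} [Field L] {A : ValuationSubring L}
variable {k : Type*} [Field k] [IsAlgClosed L] [IsAlgClosed k]
variable {F : Type*} [Field F] [Algebra L F]
variable {π : A →+* k} {ι : Bool → F →+* LaurentSeries L}
  {K : IntermediateField k (LaurentSeries k)}
variable [FF.IsFunctionField L F] [FF.IsFunctionField k K]

variable (π) in
open Classical in
/-- The coefficientwise reduction, zero unless the series is integral. -/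
def redS (x : LaurentSeries L) : LaurentSeries k :=
  if h : x ∈ intSeries A then redHom π ⟨x, h⟩ else 0

/-- On an integral series `redS` is the reduction. -/
theorem redS_of_mem {x : LaurentSeries L} (h : x ∈ intSeries A) :
    redS π x = redHom π ⟨x, h⟩ := dif_pos h

/-- The coefficients of `redS`. -/
theorem redS_coeff {x : LaurentSeries L} (h : x ∈ intSeries A) (n : ℤ) :
    (redS π x).coeff n = π ⟨x.coeff n, mem_intSeries_iff.mp h n⟩ := by
  rw [redS_of_mem h, redHom_coeff]

/-- `redS` is additive on integral series. -/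
theorem redS_add {x y : LaurentSeries L} (hx : x ∈ intSeries A) (hy : y ∈ intSeries A) :
    redS π (x + y) = redS π x + redS π y := by
  rw [redS_of_mem hx, redS_of_mem hy, redS_of_mem (add_mem hx hy), ← map_add]
  rfl

/-- `redS` is multiplicative on integral series. -/
theorem redS_mul {x y : LaurentSeries L} (hx : x ∈ intSeries A) (hy : y ∈ intSeries A) :
    redS π (x * y) = redS π x * redS π y := by
  rw [redS_of_mem hx, redS_of_mem hy, redS_of_mem (mul_mem hx hy), ← map_mul]
  rfl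

/-- `redS` commutes with powers on integral series. -/
theorem redS_pow {x : LaurentSeries L} (hx : x ∈ intSeries A) (n : ℕ) :
    redS π (x ^ n) = redS π x ^ n := by
  rw [redS_of_mem hx, redS_of_mem (pow_mem hx n), ← map_pow]
  rfl

/-- `redS` of an integral constant. -/
theorem redS_const {c : L} (hc : c ∈ A) :
    redS π (algebraMap L (LaurentSeries L) c) = algebraMap k (LaurentSeries k) (π ⟨c, hc⟩) := by
  rw [redS_of_mem (algebraMap_mem_intSeries hc), redHom_algebraMap]

/-- The coefficient of a `p`-th power in characteristic `p`. -/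
theorem coeff_pow_char (p : ℕ) [Fact p.Prime] [CharP k p] (x : LaurentSeries k) (n : ℤ) :
    (x ^ p).coeff ((p : ℤ) * n) = x.coeff n ^ p := by
  rw [Fermat.RED.laurent_pow_char p, qExpand_coeff_mul, coeffMap_coeff, frobenius_def]

namespace RatData

variable (R : RatData π ι)

/-- A nonzero integral series over `M` is a power of `ρ` times a primitive one. -/
theorem exists_scale {x : LaurentSeries L} (hx : x ∈ R.serM) (hi : x ∈ intSeries A) (h0 : x ≠ 0) :
    ∃ j : ℕ, algebraMap L (LaurentSeries L) (R.ρ ^ j)⁻¹ * x ∈ intSeries A ∧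
      redS π (algebraMap L (LaurentSeries L) (R.ρ ^ j)⁻¹ * x) ≠ 0 := by
  classical
  have hco : ∀ (c : L) (n : ℤ), (algebraMap L (LaurentSeries L) c * x).coeff n = c * x.coeff n :=
    fun c n => Fermat.RED.coeff_algebraMap_mul c x n
  obtain ⟨n₀, hn₀⟩ : ∃ n, x.coeff n ≠ 0 := by
    by_contra! h
    exact h0 (HahnSeries.ext (funext h))
  have hM := R.mem_serM.mp hx
  have hA := mem_intSeries_iff.mp hi
  -- The valuation of each nonzero coefficient is a natural number.
  have key : ∀ n, x.coeff n ≠ 0 → ∃ j : ℕ, R.Val (x.coeff n) j := fun n hn => by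
    obtain ⟨i, hv⟩ := R.exists_val (hM n) hn
    rcases le_or_gt 0 i with h | h
    · exact ⟨i.toNat, by rwa [Int.toNat_of_nonneg h]⟩
    · exfalso
      have h1 := hv.inv.small (by omega)
      have := congrArg π (show (⟨x.coeff n, hA n⟩ : A) * ⟨_, h1.1⟩ = 1 from Subtype.ext
        (mul_inv_cancel₀ hn))
      rw [map_mul, h1.2, mul_zero, map_one] at this
      exact zero_ne_one this
  obtain ⟨j₀, hj₀⟩ := key n₀ hn₀
  -- Take the least exponent `j`; division by `ρ ^ j` keeps the series integral.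
  have hex : ∃ j : ℕ, ∃ n, R.Val (x.coeff n) j := ⟨j₀, n₀, hj₀⟩
  obtain ⟨n₁, hn₁⟩ := Nat.find_spec hex
  set j := Nat.find hex
  have hint : algebraMap L (LaurentSeries L) (R.ρ ^ j)⁻¹ * x ∈ intSeries A := by
    refine mem_intSeries_iff.mpr fun n => ?_
    rw [hco]
    rcases eq_or_ne (x.coeff n) 0 with h | h
    · rw [h, mul_zero]; exact zero_mem A
    obtain ⟨i, hvi⟩ := key n h
    have hle : j ≤ i := Nat.find_min' hex ⟨n, hvi⟩
    have := ((R.val_rho (j : ℤ)).inv.mul hvi).mem (by omega)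
    rwa [zpow_natCast] at this
  -- The coefficient attaining `j` becomes a unit, so the reduction is nonzero.
  refine ⟨j, hint, fun h => ?_⟩
  have h1 := redS_coeff (π := π) hint n₁
  rw [h, HahnSeries.coeff_zero] at h1
  have hV := ((R.val_rho (j : ℤ)).inv.mul hn₁).inv.mem (by omega)
  rw [zpow_natCast, ← hco] at hV
  have := congrArg π (show (⟨_, mem_intSeries_iff.mp hint n₁⟩ : A) * ⟨_, hV⟩ = 1 from
    Subtype.ext (by
    change _ * ((algebraMap L (LaurentSeries L) (R.ρ ^ j)⁻¹ * x).coeff n₁)⁻¹ = 1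
    refine mul_inv_cancel₀ ?_
    change (algebraMap L (LaurentSeries L) (R.ρ ^ j)⁻¹ * x).coeff n₁ ≠ 0
    rw [hco]
    exact mul_ne_zero (inv_ne_zero (pow_ne_zero _ R.ρ_ne)) hn₁.1))
  rw [map_mul, ← h1, zero_mul, map_one] at this
  exact zero_ne_one this

include R in
/-- A multiple of `V ^ p` is integral only for an integral scalar. -/
theorem mem_of_mul_pow_mem {p : ℕ} [Fact p.Prime] [CharP k p] {V : LaurentSeries L}
    (hV : V ∈ intSeries A) {n : ℤ} (hn : (redS π V).coeff n ≠ 0) {c : L}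
    (hc : algebraMap L (LaurentSeries L) c * V ^ p ∈ intSeries A) : c ∈ A := by
  have hVp : (redS π (V ^ p)).coeff ((p : ℤ) * n) ≠ 0 := by
    rw [redS_pow hV, coeff_pow_char]; exact pow_ne_zero p hn
  have h1 := mem_intSeries_iff.mp hc ((p : ℤ) * n)
  rw [Fermat.RED.coeff_algebraMap_mul] at h1
  rw [redS_coeff (pow_mem hV p)] at hVp
  set a := (V ^ p).coeff ((p : ℤ) * n)
  have h2 : a⁻¹ ∈ A := by
    by_contra h
    exact hVp (not_not.mp fun h0 =>
      h (inv_mem_of_map_ne_zero (fun c => (R.surjM c).imp fun _ h => h.2) h0))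
  have ha : a ≠ 0 := fun h => hVp (by
    rw [show (⟨a, mem_intSeries_iff.mp (pow_mem hV p) _⟩ : A) = 0 from Subtype.ext h, map_zero])
  rw [show c = c * a * a⁻¹ from (mul_inv_cancel_right₀ ha c).symm]
  exact mul_mem h1 h2

/-- Below the threshold the `p`-th power part of a difference of two `p`-th powers dominates. -/
theorem split_pow {p a₀ : ℕ} [Fact p.Prime] (hvp : R.Val (p : L) (((p : ℤ) - 1) * a₀))
    {η Q : LaurentSeries L} (hji : η ∈ intSeries A) (hQi : Q ∈ intSeries A) {j : ℕ} {l : ℤ}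
    (hlj : l ≤ (j : ℤ) * p) (hlp : l < (p : ℤ) * a₀) :
    ∃ (t : A) (E : LaurentSeries L), E ∈ intSeries A ∧
      algebraMap L (LaurentSeries L) ((R.ρ ^ j) ^ p) * η ^ p +
          algebraMap L (LaurentSeries L) ((p : L) * R.ρ ^ j) * Q =
        algebraMap L (LaurentSeries L) (R.ρ ^ l) * E ∧
      redS π E = algebraMap k (LaurentSeries k) (π t) * redS π η ^ p ∧
      (t : L) = R.ρ ^ ((j : ℤ) * p - l) := by
  have hpz : (2 : ℤ) ≤ p := by exact_mod_cast (Fact.out : p.Prime).two_le
  set C := algebraMap L (LaurentSeries L)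
  have hρl := zpow_ne_zero l R.ρ_ne
  have ht : R.ρ ^ ((j : ℤ) * p - l) ∈ A := R.rho_pow_mem (by omega)
  set e := (R.ρ ^ l)⁻¹ * ((p : L) * R.ρ ^ j) with he'
  have hV' := (R.val_rho l).inv.mul (hvp.mul (R.val_rho (j : ℤ)))
  rw [zpow_natCast] at hV'
  have hes : Small π e := hV'.small (by
    rcases le_or_gt (p : ℤ) j with hj | hj
    · nlinarith
    · nlinarith)
  refine ⟨⟨_, ht⟩, C (R.ρ ^ ((j : ℤ) * p - l)) * η ^ p + C e * Q,
    add_mem (mul_mem (algebraMap_mem_intSeries ht) (pow_mem hji p))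
      (mul_mem (algebraMap_mem_intSeries hes.1) hQi), ?_, ?_, rfl⟩
  · rw [mul_add, ← mul_assoc, ← mul_assoc, ← map_mul, ← map_mul, he', ← mul_assoc,
      mul_inv_cancel₀ hρl, one_mul, ← zpow_add₀ R.ρ_ne, add_sub_cancel, zpow_mul, zpow_natCast,
      zpow_natCast]
  · rw [redS_add (mul_mem (algebraMap_mem_intSeries ht) (pow_mem hji p))
      (mul_mem (algebraMap_mem_intSeries hes.1) hQi), redS_mul (algebraMap_mem_intSeries ht)
      (pow_mem hji p), redS_mul (algebraMap_mem_intSeries hes.1) hQi, redS_const ht,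
      redS_const hes.1, hes.2, map_zero, zero_mul, add_zero, redS_pow hji]

/-- **The leading term.** If `W ^ p = (1 + δ) V ^ p + ρ ^ i Z` below the threshold then `Z` reduces
to `τ η ^ p - d V ^ p`, with `η` the reduced difference `W - V`, and `τ = 0` unless `p` divides
`i`. -/
theorem pow_lead {p a₀ : ℕ} [Fact p.Prime] [CharP k p]
    (hvp : R.Val (p : L) (((p : ℤ) - 1) * a₀)) {V W Z : LaurentSeries L}
    (hV : V ∈ intSeries A) (hVM : V ∈ R.serM) (hW : W ∈ intSeries A) (hWM : W ∈ R.serM)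
    (hZ : Z ∈ intSeries A) {n : ℤ} (hn : (redS π V).coeff n ≠ 0) (hWn : W.coeff n = V.coeff n)
    {δ : L} {i : ℤ} (hip : i < (p : ℤ) * a₀)
    (he : W ^ p = algebraMap L (LaurentSeries L) (1 + δ) * V ^ p +
      algebraMap L (LaurentSeries L) (R.ρ ^ i) * Z) :
    ∃ (j : ℕ) (τ d : k), algebraMap L (LaurentSeries L) (R.ρ ^ j)⁻¹ * (W - V) ∈ intSeries A ∧
      redS π Z = algebraMap k (LaurentSeries k) τ *
          redS π (algebraMap L (LaurentSeries L) (R.ρ ^ j)⁻¹ * (W - V)) ^ p -
        algebraMap k (LaurentSeries k) d * redS π V ^ p ∧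
      (¬ (p : ℤ) ∣ i → τ = 0) := by
  have hp := (Fact.out : p.Prime)
  set C := algebraMap L (LaurentSeries L)
  have hco : ∀ (c : L) (x : LaurentSeries L) (n : ℤ), (C c * x).coeff n = c * x.coeff n :=
    Fermat.RED.coeff_algebraMap_mul
  have hC0 : ∀ {c : L}, c ≠ 0 → C c ≠ 0 := fun h => (_root_.map_ne_zero _).mpr h
  set Vb := redS π V
  have hcoef : ∀ (x : LaurentSeries k) (c : k), (algebraMap k (LaurentSeries k) c * x ^ p).coeff
    ((p : ℤ) * n) =
      c * x.coeff n ^ p := fun x c => by rw [Fermat.RED.coeff_algebraMap_mul, coeff_pow_char]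
  -- a comparison at one scale
  have hcmp : ∀ (c : L) (E Z' : LaurentSeries L), c ≠ 0 → E ∈ intSeries A → Z' ∈ intSeries A →
      W ^ p - V ^ p = C c * E → C (R.ρ ^ i) * Z = C c * Z' →
      ∃ d : k, redS π E = algebraMap k (LaurentSeries k) d * Vb ^ p + redS π Z' := by
    intro c E Z' hc hE hZ' hd hz
    have h1 : C c * E = C c * (C (δ / c) * V ^ p + Z') := by
      rw [← hd, he, hz, mul_add, ← mul_assoc, ← map_mul, mul_div_cancel₀ _ hc, map_add, map_one]
      ring
    have h2 := mul_left_cancel₀ (hC0 hc) h1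
    have hA : δ / c ∈ A := R.mem_of_mul_pow_mem hV hn
      (by rw [eq_sub_of_add_eq h2.symm]; exact sub_mem hE hZ')
    refine ⟨π ⟨_, hA⟩, ?_⟩
    rw [h2, redS_add (mul_mem (algebraMap_mem_intSeries hA) (pow_mem hV p)) hZ',
      redS_mul (algebraMap_mem_intSeries hA) (pow_mem hV p), redS_const hA, redS_pow hV]
  rcases eq_or_ne (W - V) 0 with h0 | h0
  · obtain ⟨d, hd⟩ := hcmp (R.ρ ^ i) 0 Z (zpow_ne_zero _ R.ρ_ne) (zero_mem _) hZ
      (by rw [sub_eq_zero.mp h0, sub_self, mul_zero]) rfl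
    refine ⟨0, 0, d, by rw [h0, mul_zero]; exact zero_mem _, ?_, fun _ => rfl⟩
    rw [redS_of_mem (zero_mem (intSeries A)), show (⟨0, zero_mem _⟩ : intSeries A) = 0 from rfl,
      map_zero] at hd
    rw [map_zero, zero_mul, zero_sub, eq_neg_iff_add_eq_zero, add_comm]
    exact hd.symm
  obtain ⟨j, hji, hjn⟩ := R.exists_scale (sub_mem hWM hVM) (sub_mem hW hV) h0
  set η := C (R.ρ ^ j)⁻¹ * (W - V) with hηdef
  have hηn : (redS π η).coeff n = 0 := by
    rw [redS_coeff hji, show (⟨η.coeff n, mem_intSeries_iff.mp hji n⟩ : A) = 0 from Subtype.ext (by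
      simp only [η, hco, HahnSeries.coeff_sub, hWn, sub_self, mul_zero]; rfl), map_zero]
  have hWη : W = V + C (R.ρ ^ j) * η := by
    rw [hηdef, ← mul_assoc, ← map_mul, mul_inv_cancel₀ (pow_ne_zero _ R.ρ_ne), map_one, one_mul]
    ring
  clear_value η
  obtain ⟨q, hq⟩ := exists_add_pow_prime_sq hp (⟨V, hV⟩ : intSeries A)
    ⟨C (R.ρ ^ j) * η, mul_mem (algebraMap_mem_intSeries (pow_mem R.ρ_A j)) hji⟩
  have hq' := congrArg Subtype.val hq
  push_cast at hq'
  set Q := V ^ (p - 1) * η + C (R.ρ ^ j) * η ^ 2 * (q : LaurentSeries L) with hQ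
  have hQi : Q ∈ intSeries A := add_mem (mul_mem (pow_mem hV _) hji)
    (mul_mem (mul_mem (algebraMap_mem_intSeries (pow_mem R.ρ_A j)) (pow_mem hji 2)) q.2)
  have hdiff : W ^ p - V ^ p = C ((R.ρ ^ j) ^ p) * η ^ p + C ((p : L) * R.ρ ^ j) * Q := by
    rw [hWη, hq', hQ]
    simp only [C, map_mul, map_pow, map_natCast]
    ring
  clear_value Q
  have hsplit : ∀ l : ℤ, l ≤ (j : ℤ) * p → l ≤ i →
      ∃ (t : A) (E : LaurentSeries L), E ∈ intSeries A ∧ W ^ p - V ^ p = C (R.ρ ^ l) * E ∧
        redS π E = algebraMap k (LaurentSeries k) (π t) * redS π η ^ p ∧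
        (t : L) = R.ρ ^ ((j : ℤ) * p - l) :=
    fun l hlj hli => hdiff ▸ R.split_pow hvp hji hQi hlj (hli.trans_lt hip)
  rcases lt_or_ge ((j : ℤ) * p) i with hlt | hge
  · exfalso
    obtain ⟨t, E, hE, hd, hEr, ht⟩ := hsplit _ le_rfl hlt.le
    have hZ' : C (R.ρ ^ (i - (j : ℤ) * p)) * Z ∈ intSeries A :=
      mul_mem (algebraMap_mem_intSeries (R.rho_pow_mem (by omega))) hZ
    obtain ⟨d, hd'⟩ := hcmp _ E _ (zpow_ne_zero _ R.ρ_ne) hE hZ' hd (by
      rw [← mul_assoc, ← map_mul, ← zpow_add₀ R.ρ_ne, add_sub_cancel])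
    have hs := R.rho_pow_small (i := i - (j : ℤ) * p) (by omega)
    rw [hEr, redS_mul (algebraMap_mem_intSeries hs.1) hZ, redS_const hs.1, hs.2, map_zero, zero_mul,
      add_zero, show t = 1 from Subtype.ext (by rw [ht, sub_self, zpow_zero]; rfl),
      map_one, map_one,
      one_mul] at hd'
    have h1 := congrArg (fun x => x.coeff ((p : ℤ) * n)) hd'
    simp only [coeff_pow_char, hcoef, hηn, zero_pow hp.ne_zero] at h1
    rw [eq_comm, mul_eq_zero, or_iff_left (pow_ne_zero p hn)] at h1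
    rw [h1, map_zero, zero_mul] at hd'
    exact pow_ne_zero p hjn hd'
  · obtain ⟨t, E, hE, hd, hEr, ht⟩ := hsplit i hge le_rfl
    obtain ⟨d, hd'⟩ := hcmp _ E Z (zpow_ne_zero _ R.ρ_ne) hE hZ hd rfl
    refine ⟨j, π t, d, hηdef ▸ hji, by rw [← hηdef, ← hEr, hd', add_sub_cancel_left], fun hnd => ?_⟩
    have hpos : 0 < (j : ℤ) * p - i := by
      rcases hge.lt_or_eq with h | h
      · omega
      · exact absurd ⟨(j : ℤ), by rw [h]; ring⟩ hnd
    rw [show t = ⟨_, (R.rho_pow_small hpos).1⟩ from Subtype.ext ht]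
    exact (R.rho_pow_small hpos).2

end RatData

end Fermat.BAD

end
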