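import Fermat.Agent.BAD.Wit.Lift

/-!
# Approximate roots and the two kinds of improvement

`Approx i` says that a rational `f` with the reductions `u` has `f ^ p ≡ γ r` modulo `ρ ^ i`.
Below the threshold `p a` a leading term which is a `p`-th power is removed (`step_power`); a
scalar multiple of `u ^ p` is removed at any depth by changing `γ` (`step_scalar`).
-/

set_option autoImplicit false

attribute [local instance 10000] SubalgebraClass.toAlgebra HahnSeries.powerSeriesAlgebra

noncomputable section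

open AlgebraicCurve

namespace Fermat.BAD

open Fermat.FF Fermat.RED.Model

/-- The binomial expansion at a prime exponent. -/
theorem exists_add_pow_prime_sq {S : Type*} [CommRing S] {p : ℕ} (hp : p.Prime) (x y : S) :
    ∃ q : S, (x + y) ^ p = x ^ p + y ^ p + (p : S) * (x ^ (p - 1) * y + y ^ 2 * q) := by
  have h2 := hp.two_le
  refine ⟨∑ i ∈ Finset.Ico 2 p, x ^ (p - i) * y ^ (i - 2) * ((p.choose i / p : ℕ) : S), ?_⟩
  rw [add_comm x y, add_pow, Finset.sum_range_succ, Finset.range_eq_Ico,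
    Finset.sum_eq_sum_Ico_succ_bot (by omega), Finset.sum_eq_sum_Ico_succ_bot (by omega)]
  simp only [pow_zero, one_mul, Nat.sub_zero, Nat.choose_zero_right, Nat.cast_one, mul_one,
    zero_add, pow_one, Nat.choose_one_right, Nat.choose_self, Nat.sub_self]
  rw [mul_add, Finset.mul_sum, Finset.mul_sum]
  have hs : ∑ i ∈ Finset.Ico (1 + 1) p, y ^ i * x ^ (p - i) * (p.choose i : S) =
      ∑ i ∈ Finset.Ico 2 p, (p : S) *
        (y ^ 2 * (x ^ (p - i) * y ^ (i - 2) * ((p.choose i / p : ℕ) : S))) := by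
    refine Finset.sum_congr rfl fun i hi => ?_
    rw [Finset.mem_Ico] at hi
    obtain ⟨hi2, hip⟩ := hi
    have hc : (p.choose i : S) = (p : S) * ((p.choose i / p : ℕ) : S) := by
      rw [← Nat.cast_mul, Nat.mul_div_cancel' (hp.dvd_choose_self (by omega) hip)]
    have hy : y ^ i = y ^ 2 * y ^ (i - 2) := by rw [← pow_add]; congr 1; omega
    rw [hc, hy]; ring
  rw [hs]; ring

variable {L : Type*} [Field L] {A : ValuationSubring L}
variable {k : Type*} [Field k] [IsAlgClosed L] [IsAlgClosed k]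
variable {F : Type*} [Field F] [Algebra L F]
variable {π : A →+* k} {ι : Bool → F →+* LaurentSeries L}
  {K : IntermediateField k (LaurentSeries k)}
variable [FF.IsFunctionField L F] [FF.IsFunctionField k K]

/-- `a` is the value of `1 - ζ`: `p` is a prime, zero in `k`, of value `(p - 1) a` in `M`. -/
structure Thresh (R : RatData π ι) (p a : ℕ) : Prop where
  /-- `a` is positive. -/
  a_pos : 0 < a
  /-- `p` is prime. -/
  prime : p.Prime
  /-- `p` is zero in `k`. -/
  char : (p : k) = 0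
  /-- `p` is nonzero in `L`. -/
  cast_ne : (p : L) ≠ 0
  /-- `p` has value `(p - 1) a`. -/
  val_p : R.Val (p : L) (((p : ℤ) - 1) * a)

namespace Degen

variable (X : Degen π ι K)

/-- Every glued pair is the pair of reductions of a rational function with bounded poles. -/
def LiftGlue (R : RatData π ι) (m : ℕ) : Prop :=
  ∀ t ∈ X.glueSp (fun _ => 1) m, ∃ f ∈ riemannRochSpace (m • X.A0), R.RC f ∧
    (∀ b, ι b f ∈ intSeries A) ∧ ∀ b, X.red b f = t b

/-- A function whose reductions are the `p`-th powers of a glued pair nonzero at the glued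
points. -/
structure Sec (R : RatData π ι) (p m : ℕ) (r : F) (u : Bool → K) : Prop where
  /-- `r` has poles bounded by `p m A0`. -/
  mem : r ∈ riemannRochSpace ((p * m) • X.A0)
  /-- Its coefficients lie in `M`. -/
  rc : R.RC r
  /-- Its expansions are integral. -/
  int : ∀ b, ι b r ∈ intSeries A
  /-- Its reductions are `u b ^ p`. -/
  red : ∀ b, X.red b r = u b ^ p
  /-- `u` is glued. -/
  glue : u ∈ X.glueSp (fun _ => 1) m
  /-- `u` does not vanish at the glued points. -/
  ne : ∀ s ∈ X.S, evalAt s (u true) ≠ 0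

/-- An approximate root of depth `i`: `f` with reductions `u` and `f ^ p ≡ γ r` modulo `ρ ^ i`, for
a scalar `γ ≡ 1`. -/
structure App (R : RatData π ι) (p m : ℕ) (r : F) (u : Bool → K) (i : ℤ) (f : F)
    (γ : L) : Prop where
  /-- `f` has poles bounded by `m A0`. -/
  mem : f ∈ riemannRochSpace (m • X.A0)
  /-- Its coefficients lie in `M`. -/
  rc : R.RC f
  /-- Its expansions are integral. -/
  int : ∀ b, ι b f ∈ intSeries A
  /-- Its reductions are `u`. -/
  red : ∀ b, X.red b f = u b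
  /-- `γ` lies in `M`. -/
  γ_mem : γ ∈ R.M
  /-- `γ` is congruent to one. -/
  γ_one : Small π (γ - 1)
  /-- `f ^ p ≡ γ r` modulo `ρ ^ i`. -/
  dvd : RatData.Dvd (A := A) (ι := ι) (R.ρ ^ i) (γ • r - f ^ p)

/-- An approximate root exists. -/
def Approx (R : RatData π ι) (p m : ℕ) (r : F) (u : Bool → K) (i : ℤ) : Prop :=
  ∃ f γ, X.App R p m r u i f γ

variable {X} {R : RatData π ι} {a₀ p m : ℕ} {r : F} {u : Bool → K}

/-- The leading term of an approximate root. -/
def lead (R : RatData π ι) (X : Degen π ι K) (p : ℕ) (i : ℤ) (r f : F) (γ : L) (b : Bool) : K :=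
  X.red b ((R.ρ ^ i)⁻¹ • (γ • r - f ^ p))

/-- Integral multiples of a section have integral expansions. -/
theorem Sec.int_smul (h : X.Sec R p m r u) {c : L} (hc : c ∈ A) (b : Bool) :
    ι b (c • r) ∈ intSeries A := by
  rw [Algebra.smul_def, map_mul]; exact mul_mem (X.series_algebraMap hc) (h.int b)

omit [IsAlgClosed L] in
/-- The scalar of an approximate root is integral. -/
theorem App.γ_A {i : ℤ} {f : F} {γ : L} (h : X.App R p m r u i f γ) : γ ∈ A := by
  simpa using add_mem h.γ_one.1 (one_mem A)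

/-- The error is a section of `p m A0`. -/
theorem App.diff_mem {i : ℤ} {f : F} {γ : L} (h : X.App R p m r u i f γ) (hs : X.Sec R p m r u) :
    γ • r - f ^ p ∈ riemannRochSpace ((p * m) • X.A0) := by
  refine Submodule.sub_mem _ (Submodule.smul_mem _ _ hs.mem) ?_
  rw [mem_riemannRochSpace]
  intro v
  have := (mem_riemannRochSpace.mp h.mem v).pow p
  refine this.mono ?_
  simp [mul_assoc]

/-- The leading term is a glued pair. -/
theorem App.lead_glue {i : ℤ} {f : F} {γ : L} (h : X.App R p m r u i f γ) (hs : X.Sec R p m r u) :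
    lead R X p i r f γ ∈ X.glueSp (fun _ => 1) (p * m) :=
  X.glue_of_dvd h.dvd (h.diff_mem hs)

/-- If the leading term vanishes the depth goes up by one. -/
theorem App.next {i : ℤ} {f : F} {γ : L} (h : X.App R p m r u i f γ) (hs : X.Sec R p m r u)
    (h0 : ∀ b, lead R X p i r f γ b = 0) : X.App R p m r u (i + 1) f γ :=
  { h with dvd := X.dvd_succ R (R.rc_sub (R.rc_smul (X := X) h.γ_mem hs.rc)
      (R.rc_pow h.rc p)) h.dvd h0 }

variable (X) in
/-- Functions with integral expansions. -/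
def intF (_Y : Degen π ι K) : Subring F :=
  (intSeries A).comap (ι true) ⊓ (intSeries A).comap (ι false)

omit [IsAlgClosed L] in
/-- Membership in `intF`. -/
theorem mem_intF {f : F} : f ∈ X.intF ↔ ∀ b, ι b f ∈ intSeries A :=
  ⟨fun h b => by cases b; exacts [h.2, h.1], fun h => ⟨h true, h false⟩⟩

/-- `intF` is stable under integral scalars. -/
theorem intF_smul {c : L} (hc : c ∈ A) {f : F} (hf : f ∈ X.intF) : c • f ∈ X.intF :=
  X.mem_intF.mpr fun b => by
    rw [Algebra.smul_def, map_mul]; exact mul_mem (X.series_algebraMap hc) (X.mem_intF.mp hf b)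

/-- The expansion of the `p`-th power of `f + δ t`. -/
theorem expand {p : ℕ} (hp : p.Prime) {f t : F} (hf : f ∈ X.intF) (ht : t ∈ X.intF) {δ : L}
    (hδ : δ ∈ A) : ∃ Q ∈ X.intF,
      (f + δ • t) ^ p = f ^ p + δ ^ p • t ^ p + ((p : L) * δ) • Q ∧
        ∃ q ∈ X.intF, Q = f ^ (p - 1) * t + δ • q := by
  obtain ⟨q, hq⟩ := exists_add_pow_prime_sq hp (⟨f, hf⟩ : X.intF) ⟨δ • t, X.intF_smul hδ ht⟩
  have hq' := congrArg Subtype.val hq
  push_cast at hq'
  refine ⟨f ^ (p - 1) * t + δ • (t ^ 2 * q), add_mem (mul_mem (pow_mem hf _) ht)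
    (X.intF_smul hδ (mul_mem (pow_mem ht 2) q.2)), ?_, _, mul_mem (pow_mem ht 2) q.2, rfl⟩
  rw [hq', smul_pow]
  simp only [Algebra.smul_def, map_mul, map_natCast]
  ring

/-- Every section has an approximate root of depth one. -/
theorem Sec.approx_one (hs : X.Sec R p m r u) (hl : X.LiftGlue R m) :
    X.Approx R p m r u 1 := by
  obtain ⟨f, hf, hfR, hfi, hfr⟩ := hl u hs.glue
  have h0 : X.App R p m r u 0 f 1 := ⟨hf, hfR, hfi, hfr, R.M.one_mem, by
      rw [sub_self]; exact small_zero, by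
      rw [zpow_zero, X.dvd_one_iff, one_smul]
      intro b; rw [map_sub, map_pow]; exact sub_mem (hs.int b) (pow_mem (hfi b) p)⟩
  refine ⟨f, 1, ?_⟩
  have := h0.next hs fun b => ?_
  · simpa using this
  · rw [lead, zpow_zero, inv_one, one_smul, one_smul, X.red_sub (mem_gInt_of_int (hs.int b))
      (pow_mem (mem_gInt_of_int (hfi b)) p), X.red_pow (mem_gInt_of_int (hfi b)),
      hs.red, hfr, sub_self]

/-- A leading term which is a scalar times the `p`-th power is removed by the scalar. -/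
theorem App.step_scalar (hS : X.S.Nonempty) {i : ℤ} (hi : 0 < i) {f : F} {γ : L}
    (h : X.App R p m r u i f γ) (hs : X.Sec R p m r u)
    {c : Bool → k} (hc : ∀ b, lead R X p i r f γ b = c b • u b ^ p) :
    X.Approx R p m r u (i + 1) := by
  obtain ⟨s, hsS⟩ := hS
  obtain ⟨hu, hug⟩ := X.mem_glueSp.mp hs.glue
  have hg := (X.mem_glueSp.mp (h.lead_glue hs)).2 s hsS
  have o1 : OrdGE s (u true) 0 := X.ordGE_S (hu true) (X.S_B s hsS)
  have o0 : OrdGE (X.Qf s) (u false) 0 := X.ordGE_S (hu false) (X.Qf_B s hsS)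
  -- Gluing of the leading term at a glued point makes the two scalars equal.
  have hcc : c true = c false := by
    rw [one_mul, hc, hc, Algebra.smul_def, Algebra.smul_def,
      evalAt_mul (ordGE_algebraMap _ _) (by simpa using o1.pow p),
      evalAt_mul (ordGE_algebraMap _ _) (by simpa using o0.pow p), evalAt_algebraMap,
      evalAt_algebraMap, FF.evalAt_pow o1, FF.evalAt_pow o0, hug s hsS, one_mul] at hg
    refine mul_right_cancel₀ (pow_ne_zero p fun e => hs.ne s hsS ?_) hg
    rw [hug s hsS, e, mul_zero]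
  -- Lift the scalar to `a` and multiply `γ` by `1 - ρ ^ i a`.
  obtain ⟨a, haM, ha⟩ := R.surjM (c true)
  refine ⟨f, γ * (1 - R.ρ ^ i * a), App.next ?_ hs fun b => ?_⟩
  -- The new pair still approximates at level `i`.
  · refine ⟨h.mem, h.rc, h.int, h.red,
      mul_mem h.γ_mem (sub_mem R.M.one_mem (mul_mem (zpow_mem R.ρ_mem i) haM)), ?_, ?_⟩
    · rw [show γ * (1 - R.ρ ^ i * a) - 1 = (γ - 1) + -(R.ρ ^ i * (γ * a)) by ring]
      exact h.γ_one.add ((R.rho_pow_small hi).mul (mul_mem h.γ_A a.2)).neg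
    · rw [show (γ * (1 - R.ρ ^ i * (a : L))) • r - f ^ p =
        (γ • r - f ^ p) - R.ρ ^ i • ((γ * a) • r) by
          rw [smul_smul, mul_sub, mul_one, sub_smul]; ring_nf]
      refine RatData.Dvd.sub h.dvd ?_
      have := X.dvd_smul (c := R.ρ ^ i)
        (X.dvd_one_iff.mpr (fun b => hs.int_smul (mul_mem h.γ_A a.2) b))
      rwa [mul_one] at this
  -- Its leading term is the old one less `c u ^ p`, hence `0`.
  · have hz : (R.ρ ^ i)⁻¹ • ((γ * (1 - R.ρ ^ i * (a : L))) • r - f ^ p) =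
        (R.ρ ^ i)⁻¹ • (γ • r - f ^ p) - ((⟨γ * a, mul_mem h.γ_A a.2⟩ : A) : L) • r := by
      rw [smul_sub, smul_sub, smul_smul, smul_smul, mul_sub, mul_one, mul_sub,
        sub_smul, ← mul_assoc γ, mul_comm γ (R.ρ ^ i), mul_assoc, ← mul_assoc _ (R.ρ ^ i),
        inv_mul_cancel₀ (zpow_ne_zero i R.ρ_ne), one_mul]
      abel
    rw [lead, hz, X.red_sub (mem_gInt_of_int (X.dvd_iff.mp h.dvd b))
      (X.int_smul (mul_mem h.γ_A a.2) (mem_gInt_of_int (hs.int b))),
      show (γ * (a : L)) • r = ((⟨γ * a, mul_mem h.γ_A a.2⟩ : A) : L) • r from rfl,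
      X.red_smul _ (mem_gInt_of_int (hs.int b)), hs.red]
    have hγ : π ⟨γ, h.γ_A⟩ = 1 := by
      have := h.γ_one.2
      rw [show (⟨γ - 1, h.γ_one.1⟩ : A) = ⟨γ, h.γ_A⟩ - 1 from rfl, map_sub, map_one,
        sub_eq_zero] at this
      exact this
    rw [show (⟨γ * a, mul_mem h.γ_A a.2⟩ : A) = ⟨γ, h.γ_A⟩ * a from rfl, map_mul, hγ, one_mul, ha]
    change lead R X p i r f γ b - _ = 0
    rw [hc]
    cases b <;> simp [hcc]

/-- A leading term which is a `p`-th power is removed below the threshold. -/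
theorem App.step_power (ht : Thresh R p a₀) (hl : X.LiftGlue R m) {j : ℤ}
    (hj : 0 < j) (hjp : j < a₀) {f : F} {γ : L} (h : X.App R p m r u (p * j) f γ)
    (hs : X.Sec R p m r u)
    {v : Bool → K} (hv : ∀ b, lead R X p (p * j) r f γ b = (u b * v b) ^ p) :
    X.Approx R p m r u (p * j + 1) := by
  have hp := ht.prime
  have hn : p ≠ 0 := hp.ne_zero
  have : Fact p.Prime := ⟨hp⟩
  have : CharP k p := (CharP.charP_iff_prime_eq_zero hp).mpr ht.char
  obtain ⟨hb, hg⟩ := X.mem_glueSp.mp (h.lead_glue hs)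
  have htm : ∀ b, u b * v b ∈ riemannRochSpace (m • X.B) := fun b =>
    X.mem_of_pow_mem hn (hv b ▸ hb b)
  -- the `p`-th root of the leading term is glued; lift it to `t`
  have htg : (fun b => u b * v b) ∈ X.glueSp (fun _ => 1) m :=
      X.mem_glueSp.mpr ⟨htm, fun s hsS => by
    have o1 := X.ordGE_S (htm true) (X.S_B s hsS)
    have o0 := X.ordGE_S (htm false) (X.Qf_B s hsS)
    have h1 := hg s hsS
    rw [one_mul, hv, hv, FF.evalAt_pow o1, FF.evalAt_pow o0] at h1
    rw [one_mul]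
    exact frobenius_inj k p h1⟩
  obtain ⟨t, htA, htR, hti, htr⟩ := hl _ htg
  set δ := R.ρ ^ j with hδ
  have hδA : δ ∈ A := R.rho_pow_mem hj.le
  have hδp : δ ^ p = R.ρ ^ ((p : ℤ) * j) := by rw [hδ, ← zpow_natCast, ← zpow_mul, mul_comm]
  obtain ⟨Q, hQ, hexp, -⟩ := X.expand hp (X.mem_intF.mpr h.int) (X.mem_intF.mpr hti) hδA
  -- subtract `ρ ^ j t`
  set e := (R.ρ ^ ((p : ℤ) * j))⁻¹ * ((p : L) * δ) with he
  have heV : R.Val e (-((p : ℤ) * j) + (((p : ℤ) - 1) * a₀ + j)) :=
    (R.val_rho _).inv.mul (ht.val_p.mul (R.val_rho j))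
  have hje : 0 < -((p : ℤ) * j) + (((p : ℤ) - 1) * a₀ + j) := by
    have : (2 : ℤ) ≤ p := by exact_mod_cast hp.two_le
    nlinarith
  have hes : Small π e := heV.small hje
  have hne := zpow_ne_zero ((p : ℤ) * j) R.ρ_ne
  have hd : γ • r - (f + δ • t) ^ p =
      (γ • r - f ^ p) - R.ρ ^ ((p : ℤ) * j) • (t ^ p + e • Q) := by
    rw [hexp, hδp, smul_add, smul_smul, he, ← mul_assoc, mul_inv_cancel₀ hne, one_mul]
    abel
  have hTi : ∀ b, ι b (t ^ p + e • Q) ∈ intSeries A :=
    X.mem_intF.mp (add_mem (pow_mem (X.mem_intF.mpr hti) p) (X.intF_smul hes.1 hQ))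
  refine ⟨f + δ • t, γ, App.next ?_ hs fun b => ?_⟩
  · refine ⟨add_mem h.mem (Submodule.smul_mem _ _ htA),
      R.rc_add h.rc (R.rc_smul (X := X) (zpow_mem R.ρ_mem j) htR), ?_, fun b => ?_,
      h.γ_mem, h.γ_one, ?_⟩
    · exact X.mem_intF.mp (add_mem (X.mem_intF.mpr h.int) (X.intF_smul hδA (X.mem_intF.mpr hti)))
    · rw [X.red_add (mem_gInt_of_int (h.int b)) (X.int_smul hδA (mem_gInt_of_int (hti b))),
        show δ • t = ((⟨δ, hδA⟩ : A) : L) • t from rfl,
        X.red_smul _ (mem_gInt_of_int (hti b)), h.red,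
        (R.rho_pow_small hj).2, zero_smul, add_zero]
    · rw [hd]
      refine RatData.Dvd.sub h.dvd ?_
      have := X.dvd_smul (c := R.ρ ^ ((p : ℤ) * j)) (X.dvd_one_iff.mpr hTi)
      rwa [mul_one] at this
  · rw [lead, hd, smul_sub, smul_smul, inv_mul_cancel₀ hne, one_smul,
      X.red_sub (mem_gInt_of_int (X.dvd_iff.mp h.dvd b)) (mem_gInt_of_int (hTi b))]
    have hQi := mem_gInt_of_int (π := π) (X.mem_intF.mp hQ b)
    rw [X.red_add (pow_mem (mem_gInt_of_int (hti b)) p) (X.int_smul hes.1 hQi),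
      X.red_pow (mem_gInt_of_int (hti b)), show e • Q = ((⟨e, hes.1⟩ : A) : L) • Q from rfl,
      X.red_smul _ hQi, hes.2, zero_smul, add_zero, htr]
    change lead R X p _ r f γ b - _ = 0
    rw [hv, sub_self]

end Degen

end Fermat.BAD

end
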